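import Fermat.Agent.Corollaries.Weil.Gauss

/-!
# The number of the reciprocal roots

`n * #{k : 0 < k_i < n, n ∣ ∑ k_i} = (n - 1) ^ m + (-1) ^ m (n - 1)`, `m` the number of variables.
-/

set_option autoImplicit false

noncomputable section

namespace Fermat.Agent.Cor.Weil

open Finset

theorem card_expSet_add {n : ℕ} (hn : 0 < n) (m : ℕ) :
    (expSet (Fin (m + 1)) n).card + (expSet (Fin m) n).card = (n - 1) ^ m := by
  have h1 : (Fintype.piFinset fun _ : Fin m => Ioo 0 n).card = (n - 1) ^ m := by
    rw [Fintype.card_piFinset]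
    simp
  rw [← h1]
  have h2 : (expSet (Fin (m + 1)) n).card =
      ((Fintype.piFinset fun _ : Fin m => Ioo 0 n).filter fun k => ¬ n ∣ ∑ i, k i).card := by
    refine Finset.card_bij (fun k _ => Fin.tail k) ?_ ?_ ?_
    · intro k hk
      rw [expSet, mem_filter, Fintype.mem_piFinset] at hk
      rw [mem_filter, Fintype.mem_piFinset]
      refine ⟨fun i => hk.1 i.succ, fun h => ?_⟩
      have h3 := hk.2
      rw [Fin.sum_univ_succ] at h3
      have h4 := (Nat.dvd_add_iff_left (m := k 0) h).mpr h3
      have h5 := mem_Ioo.mp (hk.1 0)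
      exact absurd (Nat.le_of_dvd h5.1 h4) (by omega)
    · intro k hk l hl h
      rw [expSet, mem_filter, Fintype.mem_piFinset] at hk hl
      have hk2 := hk.2
      have hl2 := hl.2
      rw [Fin.sum_univ_succ] at hk2 hl2
      have h3 : ∑ i : Fin m, k i.succ = ∑ i : Fin m, l i.succ :=
        sum_congr rfl fun i _ => congrFun h i
      rw [← h3] at hl2
      have h5 := mem_Ioo.mp (hk.1 0)
      have h6 := mem_Ioo.mp (hl.1 0)
      have h4 : k 0 = l 0 := by
        have h7 : (k 0 + ∑ i : Fin m, k i.succ) ≡ (l 0 + ∑ i : Fin m, k i.succ) [MOD n] :=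
          ((Nat.modEq_zero_iff_dvd.mpr hk2).trans (Nat.modEq_zero_iff_dvd.mpr hl2).symm)
        have h8 := Nat.ModEq.add_right_cancel' _ h7
        rw [Nat.ModEq, Nat.mod_eq_of_lt h5.2, Nat.mod_eq_of_lt h6.2] at h8
        exact h8
      rw [← Fin.cons_self_tail k, ← Fin.cons_self_tail l, h4, h]
    · intro t ht
      rw [mem_filter, Fintype.mem_piFinset] at ht
      have h3 : 0 < (∑ i, t i) % n := Nat.pos_of_ne_zero fun h => ht.2 (Nat.dvd_of_mod_eq_zero h)
      have h4 : (∑ i, t i) % n < n := Nat.mod_lt _ hn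
      refine ⟨Fin.cons (n - (∑ i, t i) % n) t, ?_, Fin.tail_cons _ _⟩
      rw [expSet, mem_filter, Fintype.mem_piFinset]
      constructor
      · intro i
        refine Fin.cases ?_ (fun j => ?_) i
        · rw [Fin.cons_zero, mem_Ioo]
          omega
        · rw [Fin.cons_succ]
          exact ht.1 j
      · rw [Fin.sum_univ_succ]
        simp only [Fin.cons_zero, Fin.cons_succ]
        have h5 := Nat.div_add_mod (∑ i, t i) n
        refine ⟨(∑ i, t i) / n + 1, ?_⟩
        rw [mul_add, mul_one]
        omega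
  rw [h2, add_comm, expSet]
  exact Finset.card_filter_add_card_filter_not _

/-- The number of the reciprocal roots. -/
theorem card_expSet {n : ℕ} (hn : 0 < n) (m : ℕ) :
    (n : ℤ) * (expSet (Fin m) n).card = ((n : ℤ) - 1) ^ m + (-1) ^ m * ((n : ℤ) - 1) := by
  induction m with
  | zero =>
    have : expSet (Fin 0) n = {Fin.elim0} := by
      ext k
      simp only [expSet, mem_filter, Fintype.mem_piFinset, mem_singleton]
      constructor
      · intro _
        exact Subsingleton.elim _ _
      · rintro rfl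
        exact ⟨fun i => i.elim0, by simp⟩
    rw [this]
    simp
  | succ m ih =>
    have h := card_expSet_add hn m
    have h2 : ((expSet (Fin (m + 1)) n).card : ℤ) = ((n : ℤ) - 1) ^ m -
        (expSet (Fin m) n).card := by
      have : ((n - 1 : ℕ) : ℤ) = (n : ℤ) - 1 := by omega
      rw [← this, ← Nat.cast_pow, ← h]
      push_cast
      ring
    rw [h2, mul_sub, ih]
    ring

end Fermat.Agent.Cor.Weil
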