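import Fermat.Agent.Corollaries.Weil.Main
import Fermat.Agent.Corollaries.Weil.Betti
import Fermat.Agent.Corollaries.Diary.Quartic

/-!
# Diagonal curves: the bound of Hasse and Weil, and the Hermitian curve

* `abs_card_curve_sub_le`: `|N - (q + 1)| ≤ (n - 1) (n - 2) √q` for the number of points of the
  curve `a x ^ n + b y ^ n + c z ^ n = 0` (genus `(n - 1) (n - 2) / 2`) over every extension;
* `abs_card_points_sub_le`: the bound in every dimension;
* `card_hermitian`: the Hermitian curve `x ^ (ℓ + 1) + y ^ (ℓ + 1) + z ^ (ℓ + 1) = 0` has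
  `ℓ ^ 3 + 1` points over the field with `ℓ ^ 2` elements: the bound is attained.
-/

set_option autoImplicit false

noncomputable section

namespace Fermat.Agent.Cor.Weil

open Finset

variable {F : Type*} [Field F] [Fintype F]

/-- **Weil's bound** for diagonal hypersurfaces. -/
theorem abs_card_points_sub_le {n : ℕ} (hn : n ∣ Fintype.card F - 1) {r : ℕ}
    {a : Fin (r + 1) → F} (ha : ∀ i, a i ≠ 0) :
    |(Nat.card (Points F n a) : ℝ) - ∑ j ∈ range r, (Fintype.card F : ℝ) ^ j| ≤
      (expSet (Fin (r + 1)) n).card * (Fintype.card F : ℝ) ^ (((r : ℝ) - 1) / 2) := by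
  obtain ⟨α, h1, -, h3⟩ := weil (F := F) hn ha
  have h4 := h3 F
  simp only [Algebra.algebraMap_self, RingHom.id_apply, Module.finrank_self, pow_one] at h4
  have h5 : ((((Nat.card (Points F n a) : ℝ) - ∑ j ∈ range r, (Fintype.card F : ℝ) ^ j : ℝ) : ℂ)) =
      (-1) ^ (r + 1) * ∑ k ∈ expSet (Fin (r + 1)) n, α k := by
    push_cast
    rw [h4, add_sub_cancel_left]
  rw [← Real.norm_eq_abs, ← Complex.norm_real, h5, norm_mul, norm_pow, norm_neg, norm_one, one_pow,
    one_mul]
  refine (norm_sum_le _ _).trans ?_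
  rw [sum_congr rfl h1, sum_const, nsmul_eq_mul]

/-- **The bound of Hasse and Weil** for the diagonal curves of degree `n`. -/
theorem abs_card_curve_sub_le {n : ℕ} (hn : n ∣ Fintype.card F - 1) {a : Fin 3 → F}
    (ha : ∀ i, a i ≠ 0) :
    |(Nat.card (Points F n a) : ℝ) - (Fintype.card F + 1)| ≤
      ((n : ℝ) - 1) * ((n : ℝ) - 2) * √(Fintype.card F : ℝ) := by
  have hn0 : 0 < n := by
    have hq1 : 1 < Fintype.card F := Fintype.one_lt_card
    exact Nat.pos_of_dvd_of_pos hn (by omega)
  have h1 := abs_card_points_sub_le (r := 2) hn ha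
  have h2 := card_expSet hn0 3
  have h3 : ((expSet (Fin 3) n).card : ℝ) = ((n : ℝ) - 1) * ((n : ℝ) - 2) := by
    have h4 : (n : ℤ) * (expSet (Fin 3) n).card = (n : ℤ) * (((n : ℤ) - 1) * ((n : ℤ) - 2)) := by
      rw [h2]
      ring
    have h5 := mul_left_cancel₀ (by exact_mod_cast hn0.ne') h4
    exact_mod_cast h5
  have h3' : ((expSet (Fin (2 + 1)) n).card : ℝ) = ((n : ℝ) - 1) * ((n : ℝ) - 2) := h3
  rw [h3', sum_range_succ, sum_range_succ, sum_range_zero,
    pow_zero, pow_one, zero_add, add_comm 1 (Fintype.card F : ℝ)] at h1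
  rw [Real.sqrt_eq_rpow]
  convert h1 using 3
  norm_num

section Hermitian

variable [DecidableEq F] {l : ℕ}

theorem card_pow_eq_of_pow_eq (hF : Fintype.card F = l ^ 2) (hl : 1 < l) {w : F}
    (hw : w ^ l = w) : (univ.filter fun z : F => z ^ (l + 1) = w).card =
      if w = 0 then 1 else l + 1 := by
  have hq : (l + 1) * (l - 1) = Fintype.card F - 1 := by
    rw [hF]
    obtain ⟨m, rfl⟩ : ∃ m, l = m + 1 := ⟨l - 1, by omega⟩
    rw [Nat.add_sub_cancel]
    have : (m + 1) ^ 2 = (m + 1 + 1) * m + 1 := by ring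
    omega
  split_ifs with h
  · subst h
    rw [card_eq_one]
    exact ⟨0, by ext z; simp⟩
  · rw [Diary.card_pow_eq_nat ⟨_, hq.symm⟩ (by omega) h, if_pos]
    refine Diary.exists_pow_eq_of_pow_eq_one hq (by omega) ?_
    apply mul_left_cancel₀ h
    rw [← pow_succ', Nat.sub_add_cancel hl.le, hw, mul_one]

/-- **The Hermitian curve** is maximal. -/
theorem card_hermitian {p : ℕ} [Fact p.Prime] [CharP F p] {e : ℕ} (he : l = p ^ e) (hl : 1 < l)
    (hF : Fintype.card F = l ^ 2) :
    Nat.card (Points F (l + 1) (fun _ : Fin 3 => (1 : F))) = l ^ 3 + 1 := by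
  have hnorm : ∀ x : F, (x ^ (l + 1)) ^ l = x ^ (l + 1) := by
    intro x
    have h1 := FiniteField.pow_card x
    rw [hF] at h1
    rw [← pow_mul, show (l + 1) * l = l ^ 2 + l by ring, pow_add, h1, pow_succ']
  have hadd : ∀ u v : F, u ^ l = u → v ^ l = v → (-(u + v)) ^ l = -(u + v) := by
    intro u v hu hv
    have h1 : (u + v) ^ l = u + v := by
      rw [he, add_pow_char_pow, ← he, hu, hv]
    have h2 : (-1 : F) ^ l = -1 := by
      rw [he]
      exact neg_one_pow_expChar_pow F p e
    rw [neg_pow, h1, h2, neg_one_mul]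
  have hneg : ∀ u : F, u ^ l = u → (-u) ^ l = -u := by
    intro u hu
    have := hadd u 0 hu (zero_pow (by omega))
    rwa [add_zero] at this
  have h2 : (univ.filter fun P : F × F => P.1 ^ (l + 1) + P.2 ^ (l + 1) = 0).card =
      1 + (l ^ 2 - 1) * (l + 1) := by
    have h3 : (univ.filter fun P : F × F => P.1 ^ (l + 1) + P.2 ^ (l + 1) = 0).card =
        ∑ x : F, (univ.filter fun y : F => y ^ (l + 1) = -(x ^ (l + 1))).card := by
      rw [card_eq_sum_card_fiberwise (f := fun P : F × F => P.1) (t := univ) (fun _ _ => by simp)]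
      refine sum_congr rfl fun x _ => ?_
      refine card_bij (fun P _ => P.2) ?_ ?_ ?_
      · rintro ⟨a, b⟩ hP
        simp only [mem_filter, mem_univ, true_and] at hP ⊢
        rw [← hP.2]
        linear_combination hP.1
      · rintro ⟨a, b⟩ hP ⟨c, d⟩ hQ h
        simp only [mem_filter, mem_univ, true_and] at hP hQ
        rw [Prod.mk.injEq]
        exact ⟨hP.2.trans hQ.2.symm, h⟩
      · intro b hb
        simp only [mem_filter, mem_univ, true_and] at hb
        refine ⟨(x, b), ?_, rfl⟩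
        simp only [mem_filter, mem_univ, true_and, and_true]
        rw [hb]
        ring
    rw [h3, ← add_sum_erase _ _ (mem_univ (0 : F)), sum_congr rfl (g := fun _ => l + 1), sum_const,
      card_erase_of_mem (mem_univ _), card_univ, hF, smul_eq_mul]
    · congr 1
      rw [card_pow_eq_of_pow_eq hF hl (hneg _ (hnorm _)), if_pos]
      simp
    · intro x hx
      have hx0 : x ≠ 0 := (mem_erase.mp hx).1
      rw [card_pow_eq_of_pow_eq hF hl (hneg _ (hnorm _)), if_neg]
      rw [neg_eq_zero]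
      exact pow_ne_zero _ hx0
  have h4 : (univ.filter fun v : Fin 3 → F => ∑ i, (1 : F) * v i ^ (l + 1) = 0).card =
      ∑ P : F × F, (univ.filter fun z : F => z ^ (l + 1) = -(P.1 ^ (l + 1) + P.2 ^ (l + 1))).card := by
    rw [card_eq_sum_card_fiberwise (f := fun v : Fin 3 → F => (v 0, v 1)) (t := univ)
      (fun _ _ => by simp)]
    refine sum_congr rfl fun P _ => ?_
    refine card_bij (fun v _ => v 2) ?_ ?_ ?_
    · intro v hv
      simp only [mem_filter, mem_univ, true_and, one_mul, Fin.sum_univ_three] at hv ⊢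
      rw [← hv.2]
      linear_combination hv.1
    · intro v hv w hw h
      simp only [mem_filter, mem_univ, true_and] at hv hw
      have h5 := hv.2.trans hw.2.symm
      rw [Prod.mk.injEq] at h5
      funext i
      fin_cases i
      · exact h5.1
      · exact h5.2
      · exact h
    · intro z hz
      simp only [mem_filter, mem_univ, true_and] at hz
      refine ⟨![P.1, P.2, z], ?_, rfl⟩
      simp only [mem_filter, mem_univ, true_and, one_mul, Fin.sum_univ_three]
      refine ⟨?_, rfl⟩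
      change P.1 ^ (l + 1) + P.2 ^ (l + 1) + z ^ (l + 1) = 0
      rw [hz]
      ring
  have h5 : ∑ P : F × F,
      (univ.filter fun z : F => z ^ (l + 1) = -(P.1 ^ (l + 1) + P.2 ^ (l + 1))).card +
      l * (univ.filter fun P : F × F => P.1 ^ (l + 1) + P.2 ^ (l + 1) = 0).card =
      (l + 1) * l ^ 4 := by
    have h6 : ∀ P : F × F,
        (univ.filter fun z : F => z ^ (l + 1) = -(P.1 ^ (l + 1) + P.2 ^ (l + 1))).card +
        l * (if P.1 ^ (l + 1) + P.2 ^ (l + 1) = 0 then 1 else 0) = l + 1 := by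
      intro P
      rw [card_pow_eq_of_pow_eq hF hl (hadd _ _ (hnorm _) (hnorm _))]
      simp only [neg_eq_zero]
      split_ifs <;> ring
    rw [card_filter, mul_sum, ← sum_add_distrib, sum_congr rfl fun P _ => h6 P, sum_const, card_univ,
      Fintype.card_prod, hF, smul_eq_mul]
    ring
  have h7 := card_points (E := F) (ι := Fin 3) (n := l + 1) (a := fun _ => (1 : F)) (by omega)
  rw [h4, hF] at h7
  rw [h2, ← h7] at h5
  obtain ⟨m, hm⟩ : ∃ m, l ^ 2 = m + 1 := ⟨l ^ 2 - 1, by
    have : 0 < l ^ 2 := by positivity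
    omega⟩
  have hm0 : 0 < m := by
    have : 2 ^ 2 ≤ l ^ 2 := Nat.pow_le_pow_left hl 2
    omega
  rw [hm, Nat.add_sub_cancel] at h5
  apply Nat.eq_of_mul_eq_mul_right hm0
  have hmz : (m : ℤ) = (l : ℤ) ^ 2 - 1 := by
    have : ((l ^ 2 : ℕ) : ℤ) = ((m + 1 : ℕ) : ℤ) := by rw [hm]
    push_cast at this
    linarith
  zify at h5 ⊢
  rw [hmz] at h5 ⊢
  linear_combination h5

end Hermitian

end Fermat.Agent.Cor.Weil
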