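import Fermat.Agent.Corollaries.Diary.Count

/-!
# The number of solutions of a diagonal equation over a finite field

`χ` a multiplicative character of order `n`, `ψ` a non-trivial additive character of `F`:
the number of solutions of `∑ a_i x_i ^ n = 0` by Gauss sums.
-/

set_option autoImplicit false

noncomputable section

namespace Fermat.Agent.Cor.Weil

open Finset

variable {F : Type*} [Field F] [Fintype F] [DecidableEq F] {n : ℕ} {χ : MulChar F ℂ}
  {ψ : AddChar F ℂ}

/-- The sum of `ψ (t x ^ n)`, `t ≠ 0`. -/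
theorem sum_psi_pow (hn0 : 0 < n) (hχ : orderOf χ = n) (hψ : ψ.IsPrimitive) {t : F} (ht : t ≠ 0) :
    ∑ x : F, ψ (t * x ^ n) = ∑ k ∈ Ioo 0 n, (χ t)⁻¹ ^ k * gaussSum (χ ^ k) ψ := by
  have h1 : ∑ x : F, ψ (t * x ^ n) =
      ∑ u : F, ψ (t * u) * ((univ.filter fun x : F => x ^ n = u).card : ℂ) := by
    rw [← sum_fiberwise (s := univ) (g := fun x : F => x ^ n)]
    refine sum_congr rfl fun u _ => ?_
    rw [sum_congr rfl (g := fun _ => ψ (t * u)) fun x hx => by rw [(mem_filter.mp hx).2],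
      sum_const, nsmul_eq_mul, mul_comm]
  rw [h1]
  simp_rw [Diary.card_pow_eq hn0 hχ, mul_sum]
  rw [sum_comm]
  have h2 : range n = insert 0 (Ioo 0 n) := by
    ext i
    simp only [mem_range, mem_insert, mem_Ioo]
    omega
  rw [h2, sum_insert (by simp)]
  have h3 : ∑ u : F, ψ (t * u) * χ u ^ 0 = 0 := by
    simp only [pow_zero, mul_one]
    have := AddChar.sum_mulShift (R := F) t hψ
    rw [if_neg ht, Nat.cast_zero] at this
    rw [← this]
    exact sum_congr rfl fun u _ => by rw [mul_comm]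
  rw [h3, zero_add]
  refine sum_congr rfl fun k hk => ?_
  have hk0 : k ≠ 0 := (mem_Ioo.mp hk).1.ne'
  have h4 : ∑ u : F, ψ (t * u) * χ u ^ k = gaussSum (χ ^ k) (ψ.mulShift t) := by
    rw [gaussSum]
    refine sum_congr rfl fun u _ => ?_
    rw [MulChar.pow_apply' _ hk0, AddChar.mulShift_apply, mul_comm]
  have h5 := gaussSum_mulShift (χ ^ k) ψ (Units.mk0 t ht)
  rw [Units.val_mk0, MulChar.pow_apply' _ hk0] at h5
  have h6 : χ t ≠ 0 := by
    intro h0
    have h7 := MulChar.map_one χ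
    rw [← mul_inv_cancel₀ ht, map_mul, h0, zero_mul] at h7
    exact zero_ne_one h7
  rw [h4, ← h5, inv_pow, ← mul_assoc, inv_mul_cancel₀ (pow_ne_zero _ h6), one_mul]

omit [Fintype F] [DecidableEq F] in
theorem addChar_sum {ι : Type*} (s : Finset ι) (f : ι → F) :
    ψ (∑ i ∈ s, f i) = ∏ i ∈ s, ψ (f i) := by
  classical
  induction s using Finset.induction_on with
  | empty => simp
  | insert i s hi ih => rw [sum_insert hi, prod_insert hi, AddChar.map_add_eq_mul, ih]

omit [Fintype F] [DecidableEq F] in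
theorem apply_ne_zero {t : F} (ht : t ≠ 0) : χ t ≠ 0 := by
  intro h0
  have h7 := MulChar.map_one χ
  rw [← mul_inv_cancel₀ ht, map_mul, h0, zero_mul] at h7
  exact zero_ne_one h7

/-- The sum over `t ≠ 0` of `χ t ^ (- m)`. -/
theorem sum_inv_pow (hn0 : 0 < n) (hχ : orderOf χ = n) (m : ℕ) :
    ∑ t ∈ univ.erase (0 : F), (χ t)⁻¹ ^ m = if n ∣ m then (Fintype.card F : ℂ) - 1 else 0 := by
  split_ifs with h
  · obtain ⟨c, rfl⟩ := h
    have h1 : ∀ t ∈ univ.erase (0 : F), (χ t)⁻¹ ^ (n * c) = 1 := by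
      intro t ht
      have ht0 : t ≠ 0 := (mem_erase.mp ht).1
      have h2 : χ t ^ n = 1 := by
        rw [← MulChar.pow_apply' _ hn0.ne', ← hχ, pow_orderOf_eq_one,
          MulChar.one_apply (isUnit_iff_ne_zero.mpr ht0)]
      rw [pow_mul, inv_pow, h2, inv_one, one_pow]
    rw [sum_congr rfl h1, sum_const, card_erase_of_mem (mem_univ _), card_univ, nsmul_eq_mul,
      mul_one, Nat.cast_sub Fintype.card_pos, Nat.cast_one]
  · have h1 : χ⁻¹ ^ m ≠ 1 := by
      intro h1
      rw [inv_pow, inv_eq_one] at h1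
      exact h (hχ ▸ orderOf_dvd_of_pow_eq_one h1)
    have hm : m ≠ 0 := by
      rintro rfl
      exact h (dvd_zero _)
    have h2 := MulChar.sum_eq_zero_of_ne_one h1
    rw [← add_sum_erase _ _ (mem_univ (0 : F)), MulChar.map_zero, zero_add] at h2
    rw [← h2]
    refine sum_congr rfl fun t ht => ?_
    rw [MulChar.pow_apply' _ hm, MulChar.inv_apply_eq_inv, Ring.inverse_eq_inv']

section Count

variable {ι : Type*} [Fintype ι] [DecidableEq ι]

/-- The exponents `k i`, `0 < k i < n`, with `n ∣ ∑ k i`. -/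
def expSet (ι : Type*) [Fintype ι] [DecidableEq ι] (n : ℕ) : Finset (ι → ℕ) :=
  (Fintype.piFinset fun _ => Ioo 0 n).filter fun k => n ∣ ∑ i, k i

/-- **The number of solutions of a diagonal equation.** -/
theorem card_mul_card (hn0 : 0 < n) (hχ : orderOf χ = n) (hψ : ψ.IsPrimitive) {a : ι → F}
    (ha : ∀ i, a i ≠ 0) :
    (Fintype.card F : ℂ) * ((univ.filter fun x : ι → F => ∑ i, a i * x i ^ n = 0).card : ℂ) =
      (Fintype.card F : ℂ) ^ Fintype.card ι + ((Fintype.card F : ℂ) - 1) *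
        ∑ k ∈ expSet ι n, ∏ i, ((χ (a i))⁻¹ ^ k i * gaussSum (χ ^ k i) ψ) := by
  have h1 : (Fintype.card F : ℂ) *
      ((univ.filter fun x : ι → F => ∑ i, a i * x i ^ n = 0).card : ℂ) =
      ∑ t : F, ∑ x : ι → F, ψ (t * ∑ i, a i * x i ^ n) := by
    rw [sum_comm]
    have h2 : ∀ x : ι → F, ∑ t : F, ψ (t * ∑ i, a i * x i ^ n) =
        if ∑ i, a i * x i ^ n = 0 then (Fintype.card F : ℂ) else 0 := by
      intro x
      rw [AddChar.sum_mulShift _ hψ]
      split_ifs <;> simp
    simp_rw [h2]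
    rw [← sum_filter, sum_const, nsmul_eq_mul, mul_comm]
  rw [h1, ← add_sum_erase _ _ (mem_univ (0 : F))]
  congr 1
  · simp
  · have h2 : ∀ t ∈ univ.erase (0 : F), ∑ x : ι → F, ψ (t * ∑ i, a i * x i ^ n) =
        ∑ k ∈ Fintype.piFinset (fun _ : ι => Ioo 0 n),
          (χ t)⁻¹ ^ (∑ i, k i) * ∏ i, ((χ (a i))⁻¹ ^ k i * gaussSum (χ ^ k i) ψ) := by
      intro t ht
      have ht0 : t ≠ 0 := (mem_erase.mp ht).1
      have h3 : ∀ x : ι → F, ψ (t * ∑ i, a i * x i ^ n) = ∏ i, ψ (t * a i * x i ^ n) := by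
        intro x
        rw [mul_sum, addChar_sum]
        exact prod_congr rfl fun i _ => by rw [mul_assoc]
      simp_rw [h3]
      have h4 := (prod_univ_sum (fun _ : ι => (univ : Finset F))
        (fun i x => ψ (t * a i * x ^ n))).symm
      rw [Fintype.piFinset_univ] at h4
      rw [h4]
      simp_rw [fun i => sum_psi_pow (ψ := ψ) hn0 hχ hψ (mul_ne_zero ht0 (ha i))]
      rw [prod_univ_sum]
      refine sum_congr rfl fun k _ => ?_
      rw [← prod_pow_eq_pow_sum, ← prod_mul_distrib]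
      refine prod_congr rfl fun i _ => ?_
      rw [map_mul, mul_inv, mul_pow, mul_assoc]
    rw [sum_congr rfl h2, sum_comm, expSet, sum_filter, mul_sum]
    refine sum_congr rfl fun k _ => ?_
    rw [← sum_mul, sum_inv_pow hn0 hχ]
    split_ifs <;> simp

end Count

end Fermat.Agent.Cor.Weil
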