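import Mathlib

/-!
# The theorem of Hasse and Davenport

Let `F` be a finite field, `χ` a multiplicative and `ψ` an additive character of `F`, not both
trivial, and `E / F` a finite extension. Then the Gauss sum of the lifted characters
`χ ∘ N_{E/F}` and `ψ ∘ Tr_{E/F}` of `E` is `(-1) ^ ([E : F] - 1)` times the `[E : F]`-th power of
the Gauss sum of `χ` and `ψ` (Davenport and Hasse 1935): `hasse_davenport`.

The proof follows Ireland and Rosen, chapter 11. For a monic polynomial `f` over `F` of degree `d`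
put `lam f = χ ((-1) ^ d f(0)) ψ (- a_{d-1})`. This is completely multiplicative; the sum of
`lam f` over all `f` of degree `d` is `1`, the Gauss sum `g`, `0` for `d = 0`, `1` and `d ≥ 2`.
Counting `d = ∑_{P ^ j ∣ f} deg P` gives Newton's identities between these sums and
`c k = ∑_{deg P ∣ k} deg P lam(P) ^ (k / deg P)`, hence `c k = (-1) ^ (k - 1) g ^ k`; and the
lifted Gauss sum is `c [E : F]`.
-/

namespace Fermat.Agent.Cor.Weil

open Polynomial Finset

section Lam

variable {F : Type*} [Field F] (χ : MulChar F ℂ) (ψ : AddChar F ℂ)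

/-- The completely multiplicative function `lam f = χ ((-1) ^ d f(0)) ψ (- a_{d-1})` on the monic
polynomials. -/
noncomputable def lam (f : F[X]) : ℂ := χ ((-1) ^ f.natDegree * f.coeff 0) * ψ (-f.nextCoeff)

theorem lam_one : lam χ ψ 1 = 1 := by
  simp [lam, nextCoeff]

theorem lam_mul {f g : F[X]} (hf : f.Monic) (hg : g.Monic) :
    lam χ ψ (f * g) = lam χ ψ f * lam χ ψ g := by
  unfold lam
  rw [hf.natDegree_mul hg, hf.nextCoeff_mul hg, mul_coeff_zero, neg_add, AddChar.map_add_eq_mul,
    show (-1 : F) ^ (f.natDegree + g.natDegree) * (f.coeff 0 * g.coeff 0) =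
      ((-1) ^ f.natDegree * f.coeff 0) * ((-1) ^ g.natDegree * g.coeff 0) by ring, map_mul]
  ring

theorem lam_pow {f : F[X]} (hf : f.Monic) (n : ℕ) : lam χ ψ (f ^ n) = lam χ ψ f ^ n := by
  induction n with
  | zero => simp [lam_one]
  | succ n ih => rw [pow_succ, lam_mul χ ψ (hf.pow n) hf, ih, pow_succ]

end Lam

section Monics

variable (F : Type*) [Field F] [Finite F]

theorem finite_natDegree_le (d : ℕ) : {f : F[X] | f.natDegree ≤ d}.Finite := by
  refine Set.Finite.of_injOn (f := fun (f : F[X]) (i : Fin (d + 1)) => f.coeff i)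
    (t := Set.univ) (fun _ _ => Set.mem_univ _) ?_ Set.finite_univ
  intro f hf g hg h
  ext n
  by_cases hn : n < d + 1
  · exact congrFun h ⟨n, hn⟩
  · have hf' : f.natDegree ≤ d := hf
    have hg' : g.natDegree ≤ d := hg
    rw [coeff_eq_zero_of_natDegree_lt (by omega), coeff_eq_zero_of_natDegree_lt (by omega)]

theorem finite_monics (d : ℕ) : {f : F[X] | f.Monic ∧ f.natDegree = d}.Finite := by
  refine Set.Finite.subset (finite_natDegree_le F d) (fun f hf => ?_)
  exact hf.2.le

theorem finite_irr (d : ℕ) :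
    {f : F[X] | f.Monic ∧ Irreducible f ∧ f.natDegree ≤ d}.Finite := by
  refine Set.Finite.subset (finite_natDegree_le F d) (fun f hf => ?_)
  exact hf.2.2

/-- The monic polynomials of degree `d`. -/
noncomputable def monics (d : ℕ) : Finset F[X] := (finite_monics F d).toFinset

/-- The monic irreducible polynomials of degree at most `d`. -/
noncomputable def irr (d : ℕ) : Finset F[X] := (finite_irr F d).toFinset

variable {F}

theorem mem_monics {d : ℕ} {f : F[X]} : f ∈ monics F d ↔ f.Monic ∧ f.natDegree = d := by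
  simp [monics]

theorem mem_irr {d : ℕ} {f : F[X]} :
    f ∈ irr F d ↔ f.Monic ∧ Irreducible f ∧ f.natDegree ≤ d := by
  simp [irr]

theorem add_mem_monics {d : ℕ} {f r : F[X]} (hf : f ∈ monics F d) (hr : r.natDegree < d) :
    f + r ∈ monics F d := by
  rw [mem_monics] at hf ⊢
  refine ⟨hf.1.add_of_left (degree_lt_degree (by omega)), ?_⟩
  rw [natDegree_add_eq_left_of_natDegree_lt (by omega), hf.2]

open Classical in
/-- The degree of `f` is the sum of `deg P` over all `(P, j)`, `j ≥ 1`, with `P ^ j ∣ f`. -/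
theorem natDegree_eq_sum {d : ℕ} {f : F[X]} (hf : f ∈ monics F d) :
    d = ∑ P ∈ irr F d, P.natDegree * #{j ∈ Icc 1 d | P ^ j ∣ f} := by
  obtain ⟨hm, hd⟩ := mem_monics.1 hf
  set nf := UniqueFactorizationMonoid.normalizedFactors f with hnf
  have hprod : nf.prod = f := by
    rw [hnf, UniqueFactorizationMonoid.prod_normalizedFactors_eq hm.ne_zero, hm.normalize_eq_self]
  have hirr : ∀ P ∈ nf, Irreducible P := fun P hP =>
    UniqueFactorizationMonoid.irreducible_of_normalized_factor P hP
  have hmon : ∀ P ∈ nf, P.Monic := fun P hP => by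
    rw [← UniqueFactorizationMonoid.normalize_normalized_factor P hP]
    exact monic_normalize (hirr P hP).ne_zero
  have hle : ∀ P ∈ nf, P.natDegree ≤ d := fun P hP => by
    rw [← hd]
    exact natDegree_le_of_dvd (UniqueFactorizationMonoid.dvd_of_mem_normalizedFactors hP)
      hm.ne_zero
  have h1 : d = ∑ P ∈ nf.toFinset, nf.count P * P.natDegree := by
    rw [← hd]
    conv_lhs => rw [← hprod]
    rw [natDegree_multiset_prod_of_monic _ hmon, Finset.sum_multiset_map_count]
    simp
  conv_lhs => rw [h1]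
  have hsub : nf.toFinset ⊆ irr F d := fun P hP => by
    rw [Multiset.mem_toFinset] at hP
    exact mem_irr.2 ⟨hmon P hP, hirr P hP, hle P hP⟩
  rw [Finset.sum_subset hsub (fun P _ hP => by
    rw [Multiset.mem_toFinset] at hP
    rw [Multiset.count_eq_zero_of_notMem hP, zero_mul])]
  refine Finset.sum_congr rfl (fun P hP => ?_)
  obtain ⟨hPm, hPi, hPd⟩ := mem_irr.1 hP
  have hkey : ∀ j : ℕ, P ^ j ∣ f ↔ j ≤ nf.count P := fun j => by
    rw [Multiset.le_count_iff_replicate_le, pow_dvd_iff_le_emultiplicity,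
      UniqueFactorizationMonoid.le_emultiplicity_iff_replicate_le_normalizedFactors hPi
        hm.ne_zero, hPm.normalize_eq_self]
  have hc : nf.count P ≤ d := by
    have h2 : (P ^ nf.count P).natDegree ≤ f.natDegree :=
      natDegree_le_of_dvd ((hkey _).2 le_rfl) hm.ne_zero
    rw [hPm.natDegree_pow, hd] at h2
    exact le_trans (Nat.le_mul_of_pos_right _ hPi.natDegree_pos) h2
  have h3 : ({j ∈ Icc 1 d | P ^ j ∣ f} : Finset ℕ) = Icc 1 (nf.count P) := by
    ext j
    rw [Finset.mem_filter, Finset.mem_Icc, Finset.mem_Icc, hkey]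
    omega
  rw [h3, Nat.card_Icc, Nat.add_sub_cancel, mul_comm]

end Monics

section Newton

variable {F : Type*} [Field F] [Fintype F] (χ : MulChar F ℂ) (ψ : AddChar F ℂ)

/-- The sum of `lam f` over the monic polynomials `f` of degree `d`. -/
noncomputable def sumLam (d : ℕ) : ℂ := ∑ f ∈ monics F d, lam χ ψ f

/-- `c k = ∑ deg P lam(P) ^ (k / deg P)` over the monic irreducible `P` with `deg P ∣ k`. -/
noncomputable def cLam (k : ℕ) : ℂ :=
  ∑ P ∈ irr F k with P.natDegree ∣ k, (P.natDegree : ℂ) * lam χ ψ P ^ (k / P.natDegree)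

theorem sumLam_zero : sumLam χ ψ 0 = 1 := by
  have h : monics F 0 = {1} := by
    ext f
    rw [mem_monics, Finset.mem_singleton]
    constructor
    · rintro ⟨h1, h2⟩
      exact (Monic.natDegree_eq_zero h1).1 h2
    · rintro rfl
      exact ⟨monic_one, natDegree_one⟩
  rw [sumLam, h, Finset.sum_singleton, lam_one]

theorem sumLam_one : sumLam χ ψ 1 = gaussSum χ ψ := by
  rw [sumLam, gaussSum]
  refine Finset.sum_nbij' (fun f => -f.coeff 0) (fun a => X - C a) (fun _ _ => Finset.mem_univ _)
    (fun a _ => mem_monics.2 ⟨monic_X_sub_C a, natDegree_X_sub_C a⟩) ?_ ?_ ?_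
  · intro f hf
    obtain ⟨h1, h2⟩ := mem_monics.1 hf
    conv_rhs => rw [h1.eq_X_add_C h2]
    simp
  · intro a _
    simp
  · intro f hf
    obtain ⟨h1, h2⟩ := mem_monics.1 hf
    rw [lam, h2, nextCoeff_of_natDegree_pos (by omega), h2]
    simp

theorem sumLam_eq_zero (h : χ ≠ 1 ∨ ψ ≠ 1) {d : ℕ} (hd : 2 ≤ d) : sumLam χ ψ d = 0 := by
  rcases h with h | h
  · obtain ⟨u, hu⟩ := MulChar.ne_one_iff.1 h
    have key : sumLam χ ψ d = χ u * sumLam χ ψ d := by
      rw [sumLam, Finset.mul_sum]
      have hmem : ∀ (v : F) (f : F[X]), f ∈ monics F d → f + C ((v - 1) * f.coeff 0) ∈ monics F d :=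
        fun v f hf => add_mem_monics hf (by rw [natDegree_C]; omega)
      have hco : ∀ (v : F) (f : F[X]), (f + C ((v - 1) * f.coeff 0)).coeff 0 = v * f.coeff 0 :=
        fun v f => by rw [coeff_add, coeff_C_zero]; ring
      refine (Finset.sum_nbij' (fun f => f + C (((u : F) - 1) * f.coeff 0))
        (fun f => f + C ((((u⁻¹ : Fˣ) : F) - 1) * f.coeff 0)) (fun f hf => hmem _ f hf)
        (fun f hf => hmem _ f hf) (fun f _ => ?_) (fun f _ => ?_) (fun f hf => ?_)).symm
      · rw [hco, add_assoc, ← C_add]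
        rw [show ((u : F) - 1) * f.coeff 0 + (((u⁻¹ : Fˣ) : F) - 1) * (u * f.coeff 0) =
          ((((u⁻¹ : Fˣ) : F)) * u - 1) * f.coeff 0 by ring, Units.inv_mul, sub_self, zero_mul,
          C_0, add_zero]
      · rw [hco, add_assoc, ← C_add]
        rw [show (((u⁻¹ : Fˣ) : F) - 1) * f.coeff 0 + ((u : F) - 1) * (((u⁻¹ : Fˣ) : F) *
          f.coeff 0) = ((u : F) * ((u⁻¹ : Fˣ) : F) - 1) * f.coeff 0 by ring, Units.mul_inv,
          sub_self, zero_mul, C_0, add_zero]
      · have h1 := (mem_monics.1 hf).2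
        have h2 := (mem_monics.1 (hmem u f hf)).2
        rw [lam, lam, h1, h2, hco, nextCoeff_of_natDegree_pos (by omega),
          nextCoeff_of_natDegree_pos (by omega), h1, h2, coeff_add,
          coeff_C_of_ne_zero (by omega : d - 1 ≠ 0), add_zero, ← mul_assoc, ← map_mul]
        ring_nf
    have : (1 - χ u) * sumLam χ ψ d = 0 := by rw [sub_mul, one_mul, ← key, sub_self]
    exact (mul_eq_zero.1 this).resolve_left (sub_ne_zero.2 (Ne.symm hu))
  · obtain ⟨b, hb⟩ := AddChar.ne_one_iff.1 h
    have key : sumLam χ ψ d = ψ b * sumLam χ ψ d := by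
      rw [sumLam, Finset.mul_sum]
      have hmem : ∀ (v : F) (f : F[X]), f ∈ monics F d → f + C v * X ^ (d - 1) ∈ monics F d :=
        fun v f hf => add_mem_monics hf (lt_of_le_of_lt (natDegree_C_mul_X_pow_le _ _) (by omega))
      refine (Finset.sum_nbij' (fun f => f + C (-b) * X ^ (d - 1)) (fun f => f + C b * X ^ (d - 1))
        (fun f hf => hmem _ f hf) (fun f hf => hmem _ f hf) (fun f _ => ?_) (fun f _ => ?_)
        (fun f hf => ?_)).symm
      · rw [C_neg]; ring
      · rw [C_neg]; ring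
      · have h1 := (mem_monics.1 hf).2
        have h2 := (mem_monics.1 (hmem (-b) f hf)).2
        rw [lam, lam, h1, h2, nextCoeff_of_natDegree_pos (by omega),
          nextCoeff_of_natDegree_pos (by omega), h1, h2, coeff_add, coeff_add, coeff_C_mul,
          coeff_C_mul, coeff_X_pow, coeff_X_pow, if_pos rfl, if_neg (by omega), mul_zero, add_zero,
          mul_one, neg_add, neg_neg, AddChar.map_add_eq_mul]
        ring
    have : (1 - ψ b) * sumLam χ ψ d = 0 := by rw [sub_mul, one_mul, ← key, sub_self]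
    exact (mul_eq_zero.1 this).resolve_left (sub_ne_zero.2 (Ne.symm hb))

theorem sum_dvd {P : F[X]} (hP : P.Monic) (d j : ℕ) [DecidablePred fun f : F[X] => P ^ j ∣ f] :
    ∑ f ∈ monics F d with P ^ j ∣ f, lam χ ψ f =
      if j * P.natDegree ≤ d then lam χ ψ P ^ j * sumLam χ ψ (d - j * P.natDegree) else 0 := by
  split_ifs with h
  · rw [sumLam, Finset.mul_sum]
    have hPj : (P ^ j).Monic := hP.pow j
    have hdeg : (P ^ j).natDegree = j * P.natDegree := hP.natDegree_pow j
    refine (Finset.sum_nbij (fun g => P ^ j * g) (fun g hg => ?_) (fun g _ g' _ hgg => ?_)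
      (fun f hf => ?_) (fun g hg => ?_)).symm
    · obtain ⟨h1, h2⟩ := mem_monics.1 hg
      rw [Finset.mem_filter, mem_monics]
      refine ⟨⟨hPj.mul h1, ?_⟩, dvd_mul_right _ _⟩
      rw [hPj.natDegree_mul h1, hdeg, h2]
      omega
    · exact mul_left_cancel₀ hPj.ne_zero hgg
    · rw [Finset.mem_coe, Finset.mem_filter, mem_monics] at hf
      obtain ⟨⟨h1, h2⟩, g, rfl⟩ := hf
      have hg : g.Monic := hPj.of_mul_monic_left h1
      refine ⟨g, ?_, rfl⟩
      rw [Finset.mem_coe, mem_monics]
      rw [hPj.natDegree_mul hg, hdeg] at h2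
      exact ⟨hg, by omega⟩
    · obtain ⟨h1, h2⟩ := mem_monics.1 hg
      rw [lam_mul χ ψ hPj h1, lam_pow χ ψ hP]
  · refine Finset.sum_eq_zero (fun f hf => ?_)
    rw [Finset.mem_filter, mem_monics] at hf
    obtain ⟨⟨h1, h2⟩, h3⟩ := hf
    have h4 := natDegree_le_of_dvd h3 h1.ne_zero
    rw [hP.natDegree_pow, h2] at h4
    exact absurd h4 h

/-- **Newton's identities** for the sums `sumLam` and `cLam`. -/
theorem newton (d : ℕ) :
    (d : ℂ) * sumLam χ ψ d = ∑ k ∈ Icc 1 d, cLam χ ψ k * sumLam χ ψ (d - k) := by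
  classical
  have hL : (d : ℂ) * sumLam χ ψ d = ∑ P ∈ irr F d, (P.natDegree : ℂ) *
      ∑ j ∈ Icc 1 d, ∑ f ∈ monics F d with P ^ j ∣ f, lam χ ψ f := by
    have h1 : (d : ℂ) * sumLam χ ψ d = ∑ f ∈ monics F d, ∑ P ∈ irr F d, (P.natDegree : ℂ) *
        ∑ j ∈ Icc 1 d, if P ^ j ∣ f then lam χ ψ f else 0 := by
      rw [sumLam, Finset.mul_sum]
      refine Finset.sum_congr rfl (fun f hf => ?_)
      have h2 : (d : ℂ) = ∑ P ∈ irr F d, (P.natDegree : ℂ) * (#{j ∈ Icc 1 d | P ^ j ∣ f} : ℂ) := by
        exact_mod_cast natDegree_eq_sum hf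
      conv_lhs => rw [h2]
      rw [Finset.sum_mul]
      refine Finset.sum_congr rfl (fun P _ => ?_)
      rw [← Finset.sum_filter, Finset.sum_const, nsmul_eq_mul, mul_assoc]
    rw [h1, Finset.sum_comm]
    refine Finset.sum_congr rfl (fun P _ => ?_)
    rw [← Finset.mul_sum, Finset.sum_comm]
    simp_rw [Finset.sum_filter]
  have hR : ∑ k ∈ Icc 1 d, cLam χ ψ k * sumLam χ ψ (d - k) = ∑ P ∈ irr F d, (P.natDegree : ℂ) *
      ∑ k ∈ Icc 1 d with P.natDegree ∣ k,
        lam χ ψ P ^ (k / P.natDegree) * sumLam χ ψ (d - k) := by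
    have h1 : ∀ k ∈ Icc 1 d, cLam χ ψ k * sumLam χ ψ (d - k) = ∑ P ∈ irr F d,
        if P.natDegree ∣ k then (P.natDegree : ℂ) *
          (lam χ ψ P ^ (k / P.natDegree) * sumLam χ ψ (d - k)) else 0 := by
      intro k hk
      rw [Finset.mem_Icc] at hk
      rw [← Finset.sum_filter, cLam, Finset.sum_mul]
      have h2 : ({P ∈ irr F k | P.natDegree ∣ k} : Finset F[X]) =
          {P ∈ irr F d | P.natDegree ∣ k} := by
        ext P
        rw [Finset.mem_filter, Finset.mem_filter, mem_irr, mem_irr]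
        constructor
        · rintro ⟨⟨a, b, c⟩, e⟩
          exact ⟨⟨a, b, by omega⟩, e⟩
        · rintro ⟨⟨a, b, c⟩, e⟩
          exact ⟨⟨a, b, Nat.le_of_dvd (by omega) e⟩, e⟩
      rw [h2]
      exact Finset.sum_congr rfl (fun P _ => by ring)
    rw [Finset.sum_congr rfl h1, Finset.sum_comm]
    refine Finset.sum_congr rfl (fun P _ => ?_)
    rw [← Finset.sum_filter, Finset.mul_sum]
  rw [hL, hR]
  refine Finset.sum_congr rfl (fun P hP => ?_)
  obtain ⟨hPm, hPi, hPd⟩ := mem_irr.1 hP
  have hpos : 0 < P.natDegree := hPi.natDegree_pos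
  congr 1
  simp_rw [sum_dvd χ ψ hPm]
  rw [← Finset.sum_filter]
  refine Finset.sum_nbij' (fun j => j * P.natDegree) (fun k => k / P.natDegree) ?_ ?_ ?_ ?_ ?_
  · intro j hj
    rw [Finset.mem_filter, Finset.mem_Icc] at hj ⊢
    exact ⟨⟨Nat.mul_pos (by omega) hpos, hj.2⟩, Nat.dvd_mul_left _ _⟩
  · intro k hk
    rw [Finset.mem_filter, Finset.mem_Icc] at hk ⊢
    obtain ⟨⟨h1, h2⟩, m, rfl⟩ := hk
    rw [Nat.mul_div_cancel_left _ hpos]
    have hm : 0 < m := Nat.pos_of_mul_pos_left h1
    exact ⟨⟨hm, le_trans (Nat.le_mul_of_pos_left m hpos) h2⟩, by rw [mul_comm]; exact h2⟩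
  · intro j _
    exact Nat.mul_div_cancel _ hpos
  · intro k hk
    exact Nat.div_mul_cancel (Finset.mem_filter.1 hk).2
  · intro j _
    rw [Nat.mul_div_cancel _ hpos]

theorem cLam_succ (h : χ ≠ 1 ∨ ψ ≠ 1) (k : ℕ) :
    cLam χ ψ (k + 1) = (-1) ^ k * gaussSum χ ψ ^ (k + 1) := by
  induction k with
  | zero =>
    have := newton χ ψ 1
    rw [Finset.Icc_self, Finset.sum_singleton, sumLam_one, Nat.sub_self, sumLam_zero] at this
    simpa using this.symm
  | succ k ih =>
    have h1 := newton χ ψ (k + 2)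
    rw [sumLam_eq_zero χ ψ h (by omega), mul_zero, Finset.sum_Icc_succ_top (by omega),
      Finset.sum_Icc_succ_top (by omega), Finset.sum_eq_zero (fun j hj => ?_), zero_add,
      show k + 2 - (k + 1) = 1 by omega, Nat.sub_self, sumLam_one, sumLam_zero, mul_one, ih] at h1
    · have h2 : cLam χ ψ (k + 1 + 1) = -((-1) ^ k * gaussSum χ ψ ^ (k + 1) * gaussSum χ ψ) :=
        eq_neg_of_add_eq_zero_right h1.symm
      rw [h2]
      ring
    · rw [Finset.mem_Icc] at hj
      rw [sumLam_eq_zero χ ψ h (by omega), mul_zero]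

end Newton

section Lift

variable {F E : Type*} [Field F] [Fintype F] [Field E] [Fintype E] [Algebra F E]

omit [Fintype F] in
/-- A monic irreducible polynomial whose degree divides `[E : F]` is the minimal polynomial of
exactly `deg P` elements of `E`. -/
theorem card_minpoly_eq [DecidableEq F[X]] {P : F[X]} (hm : P.Monic) (hi : Irreducible P)
    (hd : P.natDegree ∣ Module.finrank F E) :
    #{x : E | minpoly F x = P} = P.natDegree := by
  classical
  have : Fact (Irreducible P) := ⟨hi⟩
  have hfr : Module.finrank F (AdjoinRoot P) = P.natDegree := finrank_quotient_span_eq_natDegree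
  have h1 : Nat.card (AdjoinRoot P →ₐ[F] E) = P.natDegree := by
    rw [FiniteField.natCard_algHom_of_finrank_dvd (by rw [hfr]; exact hd), hfr]
  rw [Nat.card_congr (AdjoinRoot.equiv E F P hi.ne_zero)] at h1
  rw [← Fintype.card_subtype, ← Nat.card_eq_fintype_card, ← h1]
  refine Nat.card_congr (Equiv.subtypeEquivRight (fun x => ?_))
  rw [mem_aroots]
  constructor
  · rintro rfl
    exact ⟨hi.ne_zero, minpoly.aeval F x⟩
  · rintro ⟨_, h⟩
    exact (minpoly.eq_of_irreducible_of_monic hi h hm).symm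

omit [Fintype F] in
theorem lam_minpoly (χ : MulChar F ℂ) (ψ : AddChar F ℂ) (x : E) :
    χ (Algebra.norm F x) * ψ (Algebra.trace F E x) =
      lam χ ψ (minpoly F x) ^ (Module.finrank F E / (minpoly F x).natDegree) := by
  have : FiniteDimensional F E := Module.Finite.of_finite
  have hx : IsIntegral F x := .of_finite F x
  have hfr : Module.finrank F (IntermediateField.adjoin F {x}) = (minpoly F x).natDegree :=
    IntermediateField.adjoin.finrank hx
  have hq : Module.finrank F E / (minpoly F x).natDegree =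
      Module.finrank (IntermediateField.adjoin F {x}) E := by
    rw [← Module.finrank_mul_finrank F (IntermediateField.adjoin F {x}) E, hfr,
      Nat.mul_div_cancel_left _ (minpoly.natDegree_pos hx)]
  have hn : Algebra.norm F (IntermediateField.AdjoinSimple.gen F x) =
      (-1) ^ (minpoly F x).natDegree * (minpoly F x).coeff 0 := by
    have := Algebra.PowerBasis.norm_gen_eq_coeff_zero_minpoly
      (IntermediateField.adjoin.powerBasis hx)
    simpa [IntermediateField.minpoly_gen F x] using this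
  rw [hq, Algebra.norm_eq_norm_adjoin F x, trace_eq_trace_adjoin F x, hn,
    trace_adjoinSimpleGen hx, map_pow, AddChar.map_nsmul_eq_pow, lam, mul_pow]

/-- **The theorem of Hasse and Davenport** (1935): the Gauss sum of the characters `χ ∘ N` and
`ψ ∘ Tr` of an extension of degree `s` of a finite field is `(-1) ^ (s - 1)` times the `s`-th power
of the Gauss sum of `χ` and `ψ`, if the characters are not both trivial. -/
theorem hasse_davenport (χ : MulChar F ℂ) (ψ : AddChar F ℂ) (h : χ ≠ 1 ∨ ψ ≠ 1) :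
    ∑ x : E, χ (Algebra.norm F x) * ψ (Algebra.trace F E x) =
      (-1) ^ (Module.finrank F E - 1) * gaussSum χ ψ ^ Module.finrank F E := by
  classical
  have : FiniteDimensional F E := Module.Finite.of_finite
  have hpos : 0 < Module.finrank F E := Module.finrank_pos
  obtain ⟨k, hk⟩ : ∃ k, Module.finrank F E = k + 1 := ⟨Module.finrank F E - 1, by omega⟩
  have hc := cLam_succ χ ψ h k
  rw [← hk] at hc
  rw [show Module.finrank F E - 1 = k by omega, ← hc, cLam]
  rw [← Finset.sum_fiberwise_of_maps_to (g := fun x : E => minpoly F x)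
    (t := {P ∈ irr F (Module.finrank F E) | P.natDegree ∣ Module.finrank F E})
    (fun x _ => ?_)]
  · refine Finset.sum_congr rfl (fun P hP => ?_)
    rw [Finset.mem_filter, mem_irr] at hP
    obtain ⟨⟨hm, hi, hle⟩, hd⟩ := hP
    rw [Finset.sum_congr rfl (g := fun _ => lam χ ψ P ^ (Module.finrank F E / P.natDegree))
      (fun x hx => ?_), Finset.sum_const, card_minpoly_eq hm hi hd, nsmul_eq_mul]
    rw [Finset.mem_filter] at hx
    rw [lam_minpoly, hx.2]
  · have hx : IsIntegral F x := .of_finite F x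
    rw [Finset.mem_filter, mem_irr]
    exact ⟨⟨minpoly.monic hx, minpoly.irreducible hx, Nat.le_of_dvd hpos (minpoly.degree_dvd hx)⟩,
      minpoly.degree_dvd hx⟩

end Lift

end Fermat.Agent.Cor.Weil
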