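import Mathlib

/-!
# Logarithmic derivatives of formal power series

`HasLog U B`: `U` has constant term `1` and `X U' = U B`, that is, `U = exp (∑ B_s X ^ s / s)`.
-/

set_option autoImplicit false

noncomputable section

namespace Fermat.Agent.Cor.Weil

open Finset PowerSeries

/-- `U = exp (∑ B_s X ^ s / s)`. -/
def HasLog (U B : ℂ⟦X⟧) : Prop := constantCoeff U = 1 ∧ X * d⁄dX ℂ U = U * B

theorem HasLog.mul {U V B C : ℂ⟦X⟧} (h1 : HasLog U B) (h2 : HasLog V C) :
    HasLog (U * V) (B + C) := by
  refine ⟨by rw [map_mul, h1.1, h2.1, one_mul], ?_⟩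
  rw [Derivation.leibniz, smul_eq_mul, smul_eq_mul]
  linear_combination U * h2.2 + V * h1.2

theorem HasLog.one : HasLog 1 0 := by
  refine ⟨map_one _, ?_⟩
  rw [Derivation.map_one_eq_zero, mul_zero, mul_zero]

theorem HasLog.prod {κ : Type*} (s : Finset κ) {U B : κ → ℂ⟦X⟧} (h : ∀ k ∈ s, HasLog (U k) (B k)) :
    HasLog (∏ k ∈ s, U k) (∑ k ∈ s, B k) := by
  classical
  induction s using Finset.induction_on with
  | empty => exact HasLog.one
  | insert k s hk ih =>
    rw [prod_insert hk, sum_insert hk]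
    exact (h k (mem_insert_self _ _)).mul (ih fun i hi => h i (mem_insert_of_mem hi))

theorem HasLog.unique {U V B : ℂ⟦X⟧} (h1 : HasLog U B) (h2 : HasLog V B) : U = V := by
  have hB : constantCoeff B = 0 := by
    have := congrArg constantCoeff h1.2
    rw [map_mul, map_mul, constantCoeff_X, zero_mul, h1.1, one_mul] at this
    exact this.symm
  have key : ∀ W : ℂ⟦X⟧, HasLog W B → ∀ s : ℕ, (s + 1 : ℂ) * coeff (s + 1) W =
      ∑ i ∈ range (s + 1), coeff i W * coeff (s + 1 - i) B := by
    intro W hW s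
    have h3 := congrArg (coeff (s + 1)) hW.2
    rw [coeff_succ_X_mul, coeff_derivative, coeff_mul,
      Finset.Nat.sum_antidiagonal_eq_sum_range_succ (fun i j => coeff i W * coeff j B),
      sum_range_succ, Nat.sub_self, coeff_zero_eq_constantCoeff_apply B, hB, mul_zero,
      add_zero] at h3
    rw [← h3, mul_comm]
  ext s
  induction s using Nat.strong_induction_on with
  | _ s ih =>
    cases s with
    | zero =>
      rw [coeff_zero_eq_constantCoeff_apply, coeff_zero_eq_constantCoeff_apply, h1.1, h2.1]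
    | succ s =>
      have h3 : (s + 1 : ℂ) ≠ 0 := by exact_mod_cast Nat.succ_ne_zero s
      apply mul_left_cancel₀ h3
      rw [key U h1, key V h2]
      exact sum_congr rfl fun i hi => by rw [ih i (mem_range.mp hi)]

/-- The series `∑ α ^ s X ^ s`, `s ≥ 1`. -/
def geo (α : ℂ) : ℂ⟦X⟧ := PowerSeries.mk fun s => if s = 0 then 0 else α ^ s

theorem hasLog_geo (α : ℂ) : HasLog (1 - C α * X) (-geo α) := by
  constructor
  · simp
  · have h1 : d⁄dX ℂ (1 - C α * X : ℂ⟦X⟧) = - C α := by
      ext s
      rw [coeff_derivative, map_sub, coeff_one, coeff_C_mul, coeff_X, map_neg, coeff_C]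
      cases s <;> simp
    rw [h1]
    ext s
    rw [mul_neg, mul_neg, map_neg, map_neg, sub_mul, one_mul, map_sub, geo, coeff_mk,
      mul_assoc, coeff_C_mul, mul_comm X (C α), coeff_C_mul]
    cases s with
    | zero => simp
    | succ s =>
      rw [coeff_succ_X_mul, coeff_mk, coeff_X]
      cases s <;> simp [pow_succ, mul_comm]

end Fermat.Agent.Cor.Weil
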