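import Mathlib

/-!
# The points of a projective hypersurface over a finite field and the solutions in affine space
-/

set_option autoImplicit false

noncomputable section

namespace Fermat.Agent.Cor.Weil

open Finset
open scoped LinearAlgebra.Projectivization

variable {E : Type*} [Field E] [Fintype E] [DecidableEq E] {ι : Type*} [Fintype ι] {n : ℕ}
  {a : ι → E}

/-- The points of the diagonal hypersurface `∑ a_i x_i ^ n = 0` in projective space. -/
abbrev Points (E : Type*) [Field E] {ι : Type*} [Fintype ι] (n : ℕ) (a : ι → E) : Type _ :=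
  {P : ℙ E (ι → E) // ∑ i, a i * P.rep i ^ n = 0}

omit [Fintype E] [DecidableEq E] in
theorem sum_smul_pow (u : E) (v : ι → E) :
    ∑ i, a i * (u • v) i ^ n = u ^ n * ∑ i, a i * v i ^ n := by
  rw [mul_sum]
  refine sum_congr rfl fun i _ => ?_
  rw [Pi.smul_apply, smul_eq_mul, mul_pow]
  ring

omit [Fintype E] [DecidableEq E] in
theorem bijective_smul_rep : Function.Bijective
    (fun p : Points E n a × Eˣ =>
      (⟨p.2 • p.1.1.rep, by
        refine ⟨?_, ?_⟩
        · rw [Units.smul_def]
          exact smul_ne_zero p.2.ne_zero p.1.1.rep_nonzero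
        · rw [Units.smul_def, sum_smul_pow, p.1.2, mul_zero]⟩ :
        {v : ι → E // v ≠ 0 ∧ ∑ i, a i * v i ^ n = 0})) := by
  constructor
  · rintro ⟨⟨P, hP⟩, u⟩ ⟨⟨Q, hQ⟩, w⟩ h
    have h1 : u • P.rep = w • Q.rep := congrArg Subtype.val h
    have h2 : P = Q := by
      rw [← P.mk_rep, ← Q.mk_rep, Projectivization.mk_eq_mk_iff]
      refine ⟨u⁻¹ * w, ?_⟩
      rw [mul_smul, ← h1, inv_smul_smul]
    subst h2
    have h3 : (u : E) = w := by
      rw [Units.smul_def, Units.smul_def] at h1
      exact smul_left_injective E P.rep_nonzero h1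
    rw [Units.ext h3]
  · rintro ⟨v, hv0, hv⟩
    obtain ⟨u, hu⟩ := Projectivization.exists_smul_eq_mk_rep E v hv0
    have h1 : ∑ i, a i * (Projectivization.mk E v hv0).rep i ^ n = 0 := by
      rw [← hu, Units.smul_def, sum_smul_pow, hv, mul_zero]
    refine ⟨(⟨Projectivization.mk E v hv0, h1⟩, u⁻¹), ?_⟩
    apply Subtype.ext
    change u⁻¹ • (Projectivization.mk E v hv0).rep = v
    rw [← hu, inv_smul_smul]

theorem card_points [DecidableEq ι] (hn : n ≠ 0) :
    Nat.card (Points E n a) * (Fintype.card E - 1) + 1 =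
      (univ.filter fun x : ι → E => ∑ i, a i * x i ^ n = 0).card := by
  classical
  have h1 := Nat.card_congr (Equiv.ofBijective _ (bijective_smul_rep (n := n) (a := a)))
  rw [Nat.card_prod, Nat.card_eq_fintype_card (α := Eˣ), Fintype.card_units,
    Nat.card_eq_fintype_card (α := {v : ι → E // v ≠ 0 ∧ ∑ i, a i * v i ^ n = 0}),
    Fintype.card_subtype] at h1
  rw [h1]
  have h0 : (0 : ι → E) ∈ univ.filter fun x : ι → E => ∑ i, a i * x i ^ n = 0 := by
    simp [hn]
  rw [← Finset.card_erase_add_one h0]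
  congr 2
  ext v
  simp

end Fermat.Agent.Cor.Weil
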