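import Fermat.Agent.Corollaries.Weil.Gauss
import Fermat.Agent.Corollaries.Weil.Proj
import Fermat.Agent.Corollaries.Weil.HD

/-!
# The Weil conjectures for diagonal hypersurfaces (Weil 1949)

`F` a field with `q` elements, `n ∣ q - 1`, `a_i ≠ 0`: there is one finite family of complex
numbers `α_k` of absolute value `q ^ ((r - 1) / 2)` such that for every extension `E` of `F` of
degree `s` the number of points over `E` of `a_0 x_0 ^ n + ⋯ + a_r x_r ^ n = 0` in projective space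
is `1 + q ^ s + ⋯ + q ^ ((r - 1) s) + (-1) ^ (r + 1) ∑ α_k ^ s`.
-/

set_option autoImplicit false

noncomputable section

namespace Fermat.Agent.Cor.Weil

open Finset
open scoped LinearAlgebra.Projectivization

universe v

variable {F : Type*} [Field F] [Fintype F]

section Lift

variable (E : Type*) [Field E] [Fintype E] [Algebra F E]

omit [Fintype F] in
/-- The character `χ ∘ N` of an extension. -/
def lift (χ : MulChar F ℂ) : MulChar E ℂ where
  toFun x := χ (Algebra.norm F x)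
  map_one' := by rw [map_one, map_one]
  map_mul' x y := by rw [map_mul, map_mul]
  map_nonunit' x hx := by
    rw [isUnit_iff_ne_zero, not_not] at hx
    rw [hx, Algebra.norm_zero, MulChar.map_zero]

variable {E}

omit [Fintype F] in
theorem lift_apply (χ : MulChar F ℂ) (x : E) : lift E χ x = χ (Algebra.norm F x) := rfl

omit [Fintype F] in
theorem lift_pow (χ : MulChar F ℂ) (k : ℕ) : lift E χ ^ k = lift E (χ ^ k) := by
  ext x
  rw [MulChar.pow_apply_coe, lift_apply, lift_apply]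
  exact (MulChar.pow_apply_coe χ k (Units.map (Algebra.norm F) x)).symm

omit [Fintype F] in
theorem lift_eq_one {χ : MulChar F ℂ} (h : lift E χ = 1) : χ = 1 := by
  ext x
  obtain ⟨y, rfl⟩ := FiniteField.unitsMap_norm_surjective F E x
  have := DFunLike.congr_fun h (y : E)
  rw [lift_apply, MulChar.one_apply_coe] at this
  rw [MulChar.one_apply_coe]
  exact this

theorem orderOf_lift (χ : MulChar F ℂ) : orderOf (lift E χ) = orderOf χ := by
  apply Nat.dvd_antisymm
  · rw [orderOf_dvd_iff_pow_eq_one, lift_pow, pow_orderOf_eq_one]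
    ext x
    rw [lift_apply, MulChar.one_apply_coe]
    exact MulChar.one_apply_coe (Units.map (Algebra.norm F) x)
  · rw [orderOf_dvd_iff_pow_eq_one]
    apply lift_eq_one (E := E)
    rw [← lift_pow, pow_orderOf_eq_one]

variable (E) in
omit [Fintype F] in
/-- The character `ψ ∘ Tr` of an extension. -/
def liftAdd (ψ : AddChar F ℂ) : AddChar E ℂ :=
  ψ.compAddMonoidHom (Algebra.trace F E).toAddMonoidHom

omit [Fintype F] [Fintype E] in
theorem liftAdd_apply (ψ : AddChar F ℂ) (x : E) : liftAdd E ψ x = ψ (Algebra.trace F E x) := rfl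

theorem isPrimitive_liftAdd {ψ : AddChar F ℂ} (h : ψ ≠ 1) : (liftAdd E ψ).IsPrimitive := by
  apply AddChar.IsPrimitive.of_ne_one
  intro h1
  apply h
  ext x
  have : Module.Finite F E := Module.Finite.of_finite
  obtain ⟨y, rfl⟩ := Algebra.trace_surjective F E x
  have := DFunLike.congr_fun h1 y
  rwa [liftAdd_apply] at this

theorem gaussSum_lift {χ : MulChar F ℂ} {ψ : AddChar F ℂ} (hψ : ψ ≠ 1) (k : ℕ) :
    gaussSum (lift E χ ^ k) (liftAdd E ψ) = (-1) ^ (Module.finrank F E - 1) *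
      gaussSum (χ ^ k) ψ ^ Module.finrank F E := by
  rw [lift_pow, ← hasse_davenport (E := E) _ _ (Or.inr hψ)]
  rfl

end Lift

section Count

variable {n : ℕ} {ι : Type*} [Fintype ι] [DecidableEq ι]

/-- The reciprocal roots. -/
def alpha (χ : MulChar F ℂ) (ψ : AddChar F ℂ) (a : ι → F) (k : ι → ℕ) : ℂ :=
  (∏ i, ((χ (a i))⁻¹ ^ k i * -gaussSum (χ ^ k i) ψ)) / (Fintype.card F : ℂ)

theorem card_ext {χ : MulChar F ℂ} {ψ : AddChar F ℂ} (hn0 : 0 < n) (hχ : orderOf χ = n)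
    (hψ : ψ ≠ 1) {a : ι → F} (ha : ∀ i, a i ≠ 0) (E : Type*) [Field E] [Fintype E]
    [DecidableEq E] [Algebra F E] :
    (Fintype.card E : ℂ) *
        ((univ.filter fun x : ι → E => ∑ i, algebraMap F E (a i) * x i ^ n = 0).card : ℂ) =
      (Fintype.card E : ℂ) ^ Fintype.card ι + ((Fintype.card E : ℂ) - 1) *
        ((Fintype.card E : ℂ) * ((-1) ^ Fintype.card ι *
          ∑ k ∈ expSet ι n, alpha χ ψ a k ^ Module.finrank F E)) := by
  have hs : 0 < Module.finrank F E := by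
    have : Module.Finite F E := Module.Finite.of_finite
    exact Module.finrank_pos
  have hcard : (Fintype.card E : ℂ) = (Fintype.card F : ℂ) ^ Module.finrank F E := by
    rw [Module.card_eq_pow_finrank (K := F) (V := E)]
    push_cast
    rfl
  have hq : (Fintype.card F : ℂ) ≠ 0 := Nat.cast_ne_zero.mpr Fintype.card_ne_zero
  have h := card_mul_card (F := E) (n := n) (χ := lift E χ) (ψ := liftAdd E ψ) hn0
    (by rw [orderOf_lift, hχ]) (isPrimitive_liftAdd hψ) (a := fun i => algebraMap F E (a i))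
    (fun i => by simpa using ha i)
  rw [h]
  congr 2
  rw [← mul_assoc, mul_comm (Fintype.card E : ℂ), mul_assoc, mul_sum, mul_sum]
  refine sum_congr rfl fun k _ => ?_
  obtain ⟨s, hs'⟩ : ∃ s, Module.finrank F E = s + 1 := ⟨_, (Nat.succ_pred_eq_of_pos hs).symm⟩
  simp_rw [gaussSum_lift hψ, lift_apply, Algebra.norm_algebraMap, hcard, alpha, div_pow]
  rw [mul_div_cancel₀ _ (pow_ne_zero _ hq), ← prod_pow, ← Finset.card_univ, ← prod_const,
    ← prod_mul_distrib]
  refine prod_congr rfl fun i _ => ?_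
  rw [map_pow, hs', Nat.add_sub_cancel, mul_pow, neg_pow (gaussSum (χ ^ k i) ψ) (s + 1),
    ← inv_pow, ← pow_mul, ← pow_mul, mul_comm (s + 1) (k i)]
  ring

theorem norm_gaussSum {χ : MulChar F ℂ} {ψ : AddChar F ℂ} (hχ : χ ≠ 1) (hψ : ψ ≠ 1) :
    ‖gaussSum χ ψ‖ = (Fintype.card F : ℝ) ^ (1 / 2 : ℝ) := by
  have h1 := gaussSum_mul_gaussSum_eq_card hχ (AddChar.IsPrimitive.of_ne_one hψ)
  rw [← star_gaussSum_eq, Complex.star_def, Complex.mul_conj] at h1
  have h2 : ‖gaussSum χ ψ‖ ^ 2 = (Fintype.card F : ℝ) := by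
    rw [← Complex.normSq_eq_norm_sq]
    exact_mod_cast h1
  rw [← h2, ← Real.sqrt_eq_rpow, Real.sqrt_sq (norm_nonneg _)]

omit [Fintype F] in
theorem norm_apply {χ : MulChar F ℂ} (hn0 : 0 < n) (hχ : orderOf χ = n) {t : F} (ht : t ≠ 0) :
    ‖χ t‖ = 1 := by
  have h2 : χ t ^ n = 1 := by
    rw [← MulChar.pow_apply' _ hn0.ne', ← hχ, pow_orderOf_eq_one,
      MulChar.one_apply (isUnit_iff_ne_zero.mpr ht)]
  exact Complex.norm_eq_one_of_pow_eq_one h2 hn0.ne'

theorem norm_alpha {χ : MulChar F ℂ} {ψ : AddChar F ℂ} (hn0 : 0 < n) (hχ : orderOf χ = n)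
    (hψ : ψ ≠ 1) {a : ι → F} (ha : ∀ i, a i ≠ 0) {k : ι → ℕ} (hk : k ∈ expSet ι n) :
    ‖alpha χ ψ a k‖ = (Fintype.card F : ℝ) ^ (((Fintype.card ι : ℝ) - 2) / 2) := by
  have hq : (0 : ℝ) < Fintype.card F := Nat.cast_pos.mpr Fintype.card_pos
  have h1 : ∀ i, ‖(χ (a i))⁻¹ ^ k i * -gaussSum (χ ^ k i) ψ‖ =
      (Fintype.card F : ℝ) ^ (1 / 2 : ℝ) := by
    intro i
    have hki : k i ∈ Ioo 0 n := (Fintype.mem_piFinset.mp (mem_filter.mp hk).1) i
    rw [mem_Ioo] at hki
    have h2 : χ ^ k i ≠ 1 := by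
      intro h
      have := Nat.le_of_dvd hki.1 (hχ ▸ orderOf_dvd_of_pow_eq_one h)
      omega
    rw [norm_mul, norm_pow, norm_inv, norm_apply hn0 hχ (ha i), inv_one, one_pow, one_mul, norm_neg,
      norm_gaussSum h2 hψ]
  rw [alpha, norm_div, norm_prod, prod_congr rfl fun i _ => h1 i, prod_const, card_univ,
    ← Real.rpow_natCast, ← Real.rpow_mul hq.le, Complex.norm_natCast, sub_div, Real.rpow_sub hq]
  congr 1
  · congr 1
    ring
  · norm_num

theorem gaussSum_mul_inv {χ : MulChar F ℂ} {ψ : AddChar F ℂ} (hχ : χ ≠ 1) (hψ : ψ ≠ 1) :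
    gaussSum χ ψ * gaussSum χ⁻¹ ψ = χ (-1) * (Fintype.card F : ℂ) := by
  have h1 := gaussSum_mul_gaussSum_eq_card hχ (AddChar.IsPrimitive.of_ne_one hψ)
  have h2 := gaussSum_mulShift χ⁻¹ ψ (-1 : Fˣ)
  rw [Units.val_neg, Units.val_one, ← AddChar.inv_mulShift] at h2
  have h3 : χ (-1) * χ (-1) = 1 := by
    rw [← map_mul, neg_one_mul, neg_neg, map_one]
  have h4 : χ⁻¹ (-1) = χ (-1) := by
    rw [MulChar.inv_apply', inv_neg, inv_one]
  rw [h4] at h2
  rw [← h2, ← h1]
  ring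

/-- The functional equation. -/
theorem alpha_mul_alpha {χ : MulChar F ℂ} {ψ : AddChar F ℂ} (hn0 : 0 < n) (hχ : orderOf χ = n)
    (hψ : ψ ≠ 1) {a : ι → F} (ha : ∀ i, a i ≠ 0) {k : ι → ℕ} (hk : k ∈ expSet ι n) :
    (Fintype.card F : ℂ) ^ 2 * (alpha χ ψ a k * alpha χ ψ a fun i => n - k i) =
      (Fintype.card F : ℂ) ^ Fintype.card ι := by
  have hq : (Fintype.card F : ℂ) ≠ 0 := Nat.cast_ne_zero.mpr Fintype.card_ne_zero
  have hmem := mem_filter.mp hk
  have h1 : ∀ i, ((χ (a i))⁻¹ ^ k i * -gaussSum (χ ^ k i) ψ) *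
      ((χ (a i))⁻¹ ^ (n - k i) * -gaussSum (χ ^ (n - k i)) ψ) =
      χ (-1) ^ k i * (Fintype.card F : ℂ) := by
    intro i
    have hki : k i ∈ Ioo 0 n := (Fintype.mem_piFinset.mp hmem.1) i
    rw [mem_Ioo] at hki
    have h2 : χ ^ k i ≠ 1 := by
      intro h
      have := Nat.le_of_dvd hki.1 (hχ ▸ orderOf_dvd_of_pow_eq_one h)
      omega
    have h3 : χ ^ (n - k i) = (χ ^ k i)⁻¹ := by
      rw [eq_inv_iff_mul_eq_one, ← pow_add, Nat.sub_add_cancel hki.2.le, ← hχ, pow_orderOf_eq_one]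
    have h4 : (χ (a i))⁻¹ ^ k i * (χ (a i))⁻¹ ^ (n - k i) = 1 := by
      rw [← pow_add, Nat.add_sub_cancel' hki.2.le, inv_pow, ← MulChar.pow_apply' _ hn0.ne',
        ← hχ, pow_orderOf_eq_one, MulChar.one_apply (isUnit_iff_ne_zero.mpr (ha i)), inv_one]
    have h5 := gaussSum_mul_inv h2 hψ
    rw [MulChar.pow_apply' _ hki.1.ne'] at h5
    rw [h3, mul_mul_mul_comm, h4, one_mul, neg_mul_neg, h5]
  rw [alpha, alpha, div_mul_div_comm, ← prod_mul_distrib, prod_congr rfl fun i _ => h1 i,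
    prod_mul_distrib, prod_const, card_univ, prod_pow_eq_pow_sum]
  obtain ⟨c, hc⟩ := hmem.2
  have h6 : χ (-1) ^ n = 1 := by
    rw [← MulChar.pow_apply' _ hn0.ne', ← hχ, pow_orderOf_eq_one,
      MulChar.one_apply (isUnit_iff_ne_zero.mpr (neg_ne_zero.mpr one_ne_zero))]
  rw [hc, pow_mul, h6, one_pow, one_mul]
  field_simp

end Count

/-- **The Weil conjectures for diagonal hypersurfaces** (Weil 1949). -/
theorem weil {n : ℕ} (hn : n ∣ Fintype.card F - 1) {r : ℕ} {a : Fin (r + 1) → F}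
    (ha : ∀ i, a i ≠ 0) :
    ∃ α : (Fin (r + 1) → ℕ) → ℂ,
      (∀ k ∈ expSet (Fin (r + 1)) n, ‖α k‖ = (Fintype.card F : ℝ) ^ (((r : ℝ) - 1) / 2)) ∧
      (∀ k ∈ expSet (Fin (r + 1)) n,
        (Fintype.card F : ℂ) * (α k * α fun i => n - k i) = (Fintype.card F : ℂ) ^ r) ∧
      ∀ (E : Type v) [Field E] [Fintype E] [Algebra F E],
        (Nat.card (Points E n fun i => algebraMap F E (a i)) : ℂ) =
          ∑ j ∈ range r, (Fintype.card E : ℂ) ^ j +
            (-1) ^ (r + 1) * ∑ k ∈ expSet (Fin (r + 1)) n, α k ^ Module.finrank F E := by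
  classical
  have hq1 : 1 < Fintype.card F := Fintype.one_lt_card
  have hn0 : 0 < n := Nat.pos_of_dvd_of_pos hn (by omega)
  obtain ⟨χ, hχ⟩ : ∃ χ : MulChar F ℂ, orderOf χ = n :=
    MulChar.exists_mulChar_orderOf F hn (Complex.isPrimitiveRoot_exp n hn0.ne')
  obtain ⟨ψ, hψ⟩ : ∃ ψ : AddChar F ℂ, ψ ≠ 1 := by
    refine ⟨AddChar.FiniteField.primitiveChar_to_Complex F, ?_⟩
    intro h
    have := AddChar.FiniteField.primitiveChar_to_Complex_isPrimitive F
    rw [h] at this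
    have h1 := this (a := 1) one_ne_zero
    apply h1
    ext x
    simp
  refine ⟨alpha χ ψ a, fun k hk => ?_, fun k hk => ?_, fun E _ _ _ => ?_⟩
  · rw [norm_alpha hn0 hχ hψ ha hk, Fintype.card_fin]
    congr 1
    push_cast
    ring
  · have h1 := alpha_mul_alpha hn0 hχ hψ ha hk
    have hq : (Fintype.card F : ℂ) ≠ 0 := Nat.cast_ne_zero.mpr Fintype.card_ne_zero
    rw [Fintype.card_fin] at h1
    apply mul_left_cancel₀ hq
    rw [← pow_succ', ← h1]
    ring
  · have h1 := card_ext hn0 hχ hψ ha E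
    have h0 := card_points (E := E) (a := fun i => algebraMap F E (a i)) hn0.ne'
    rw [← h0, Fintype.card_fin] at h1
    set S := ∑ k ∈ expSet (Fin (r + 1)) n, alpha χ ψ a k ^ Module.finrank F E with hS
    set Q : ℂ := (Fintype.card E : ℂ) with hQ
    have hE : 1 < Fintype.card E := Fintype.one_lt_card
    have hQ0 : Q ≠ 0 := Nat.cast_ne_zero.mpr Fintype.card_ne_zero
    have hQ1 : Q - 1 ≠ 0 := by
      rw [sub_ne_zero, hQ]
      exact_mod_cast hE.ne'
    push_cast [Nat.cast_sub hE.le] at h1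
    rw [← hQ] at h1
    have h2 : (Nat.card (Points E n fun i => algebraMap F E (a i)) : ℂ) * (Q - 1) + 1 =
        Q ^ r + (Q - 1) * ((-1) ^ (r + 1) * S) := by
      apply mul_left_cancel₀ hQ0
      rw [h1]
      ring
    apply mul_right_cancel₀ hQ1
    rw [add_mul, geom_sum_mul]
    linear_combination h2

end Fermat.Agent.Cor.Weil
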