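import Fermat.Agent.Corollaries.Diary.Count

/-!
# Fermat's equation over finite fields (Schur 1916, Dickson 1909)

For `n ≥ 2` and every finite field with more than `n ^ 4` elements the equation
`x ^ n + y ^ n = z ^ n` has a solution with `x`, `y`, `z` different from zero: Fermat's Last Theorem
cannot be proved by congruences.
-/

set_option autoImplicit false

noncomputable section

namespace Fermat.Agent.Cor.Weil

open Finset

variable {F : Type*} [Field F] [Fintype F] {n : ℕ} {χ : MulChar F ℂ}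

theorem norm_jacobiSum {φ : MulChar F ℂ} (hχ : χ ≠ 1) (hφ : φ ≠ 1) (h : χ * φ ≠ 1) :
    ‖jacobiSum χ φ‖ = √(Fintype.card F : ℝ) := by
  have h1 := Diary.jacobiSum_mul_conj hχ hφ h
  rw [Complex.mul_conj] at h1
  have h2 : ‖jacobiSum χ φ‖ ^ 2 = (Fintype.card F : ℝ) := by
    rw [← Complex.normSq_eq_norm_sq]
    exact_mod_cast h1
  rw [← h2, Real.sqrt_sq (norm_nonneg _)]

theorem norm_jacobiSum_inv (hχ : χ ≠ 1) : ‖jacobiSum χ χ⁻¹‖ = 1 := by
  rw [jacobiSum_nontrivial_inv hχ, norm_neg]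
  have h : χ (-1) ^ 2 = 1 := by
    rw [← map_pow, neg_one_sq, map_one]
  exact Complex.norm_eq_one_of_pow_eq_one h two_ne_zero

variable [DecidableEq F]

/-- The number of solutions of `x ^ n + y ^ n = 1` is `q` up to
`(n - 1) + (n - 1) (n - 2) √q`. -/
theorem abs_card_sub_le (hn0 : 0 < n) (hn : n ∣ Fintype.card F - 1) :
    |((univ.filter fun P : F × F => P.1 ^ n + P.2 ^ n = 1).card : ℝ) - Fintype.card F| ≤
      (n - 1 : ℕ) + (n - 1 : ℕ) * (n - 2 : ℕ) * √(Fintype.card F : ℝ) := by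
  obtain ⟨χ, hχ⟩ : ∃ χ : MulChar F ℂ, orderOf χ = n :=
    MulChar.exists_mulChar_orderOf F hn (Complex.isPrimitiveRoot_exp n hn0.ne')
  have hne : ∀ i ∈ Ioo 0 n, χ ^ i ≠ 1 := by
    intro i hi h
    rw [mem_Ioo] at hi
    have := Nat.le_of_dvd hi.1 (hχ ▸ orderOf_dvd_of_pow_eq_one h)
    omega
  have hr : range n = insert 0 (Ioo 0 n) := by
    ext i
    simp only [mem_range, mem_insert, mem_Ioo]
    omega
  have h1 : ((univ.filter fun P : F × F => P.1 ^ n + P.2 ^ n = 1).card : ℂ) - Fintype.card F =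
      ∑ i ∈ Ioo 0 n, ∑ j ∈ Ioo 0 n, jacobiSum (χ ^ i) (χ ^ j) := by
    rw [Diary.card_add_pow_eq hn0 hn0 hχ hχ, hr, sum_insert (by simp)]
    simp_rw [sum_insert (show (0 : ℕ) ∉ Ioo 0 n by simp)]
    rw [Diary.sum_zero_zero, sum_eq_zero fun j hj =>
      Diary.sum_zero_pow (χ := χ) (mem_Ioo.mp hj).1.ne' (hne j hj), add_zero, add_sub_cancel_left]
    refine sum_congr rfl fun i hi => ?_
    rw [Diary.sum_pow_zero (mem_Ioo.mp hi).1.ne' (hne i hi), zero_add]
    exact sum_congr rfl fun j hj =>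
      Diary.sum_pow_pow (mem_Ioo.mp hi).1.ne' (mem_Ioo.mp hj).1.ne'
  have h2 : |((univ.filter fun P : F × F => P.1 ^ n + P.2 ^ n = 1).card : ℝ) - Fintype.card F| =
      ‖((univ.filter fun P : F × F => P.1 ^ n + P.2 ^ n = 1).card : ℂ) - Fintype.card F‖ := by
    rw [← Real.norm_eq_abs, ← Complex.norm_real]
    push_cast
    rfl
  rw [h2, h1]
  have h3 : ∀ i ∈ Ioo 0 n, ‖∑ j ∈ Ioo 0 n, jacobiSum (χ ^ i) (χ ^ j)‖ ≤
      1 + (n - 2 : ℕ) * √(Fintype.card F : ℝ) := by
    intro i hi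
    have hi' := mem_Ioo.mp hi
    have hmem : n - i ∈ Ioo 0 n := by
      rw [mem_Ioo]
      omega
    rw [← add_sum_erase _ _ hmem]
    refine (norm_add_le _ _).trans (add_le_add (le_of_eq ?_) ?_)
    · have h4 : χ ^ (n - i) = (χ ^ i)⁻¹ := by
        rw [eq_inv_iff_mul_eq_one, ← pow_add, Nat.sub_add_cancel hi'.2.le, ← hχ, pow_orderOf_eq_one]
      rw [h4]
      exact norm_jacobiSum_inv (hne i hi)
    · refine (norm_sum_le _ _).trans ?_
      have h5 : ∀ j ∈ (Ioo 0 n).erase (n - i), ‖jacobiSum (χ ^ i) (χ ^ j)‖ ≤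
          √(Fintype.card F : ℝ) := by
        intro j hj
        rw [mem_erase] at hj
        have hj' := mem_Ioo.mp hj.2
        refine (norm_jacobiSum (hne i hi) (hne j hj.2) fun h => ?_).le
        rw [← pow_add] at h
        obtain ⟨c, hc⟩ : n ∣ i + j := hχ ▸ orderOf_dvd_of_pow_eq_one h
        have hc1 : c = 1 := by
          have : c < 2 := by
            by_contra hlt
            push Not at hlt
            have := Nat.mul_le_mul_left n hlt
            omega
          have : c ≠ 0 := by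
            rintro rfl
            omega
          omega
        rw [hc1, mul_one] at hc
        exact hj.1 (by omega)
      refine (sum_le_sum h5).trans ?_
      rw [sum_const, card_erase_of_mem hmem, Nat.card_Ioo, nsmul_eq_mul]
      have : n - 0 - 1 - 1 = n - 2 := by omega
      rw [this]
  refine (norm_sum_le _ _).trans ((sum_le_sum h3).trans ?_)
  rw [sum_const, Nat.card_Ioo, nsmul_eq_mul]
  have : n - 0 - 1 = n - 1 := by omega
  rw [this]
  linarith

/-- A solution of `x ^ d + y ^ d = 1` with `x y ≠ 0`. -/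
theorem exists_add_pow_eq_one {d : ℕ} (hd : d ∣ Fintype.card F - 1) (h2 : 2 < Fintype.card F)
    (hlt : d ^ 4 < Fintype.card F) : ∃ x y : F, x ≠ 0 ∧ y ≠ 0 ∧ x ^ d + y ^ d = 1 := by
  have hd0 : 0 < d := Nat.pos_of_dvd_of_pos hd (by omega)
  by_contra hno
  push Not at hno
  set S := univ.filter fun P : F × F => P.1 ^ d + P.2 ^ d = 1 with hS
  -- all solutions have a zero coordinate
  have hroots : (univ.filter fun y : F => y ^ d = 1).card ≤ d := by
    have h1 : (univ.filter fun x : F => x ^ d = 1) = (Polynomial.nthRoots d (1 : F)).toFinset := by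
      ext x
      simp [Polynomial.mem_nthRoots hd0]
    rw [h1]
    exact (Multiset.toFinset_card_le _).trans (Polynomial.card_nthRoots d 1)
  have hcard : S.card ≤ 2 * d := by
    have hsub : S ⊆ ((univ.filter fun y : F => y ^ d = 1).image fun y => ((0 : F), y)) ∪
        ((univ.filter fun y : F => y ^ d = 1).image fun x => (x, (0 : F))) := by
      rintro ⟨x, y⟩ hP
      rw [hS, mem_filter] at hP
      have hP' : x ^ d + y ^ d = 1 := hP.2
      rw [mem_union, mem_image, mem_image]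
      by_cases hx : x = 0
      · left
        refine ⟨y, ?_, by rw [hx]⟩
        rw [mem_filter]
        refine ⟨mem_univ _, ?_⟩
        rwa [hx, zero_pow hd0.ne', zero_add] at hP'
      · have hy : y = 0 := by
          by_contra hy
          exact hno x y hx hy hP'
        right
        refine ⟨x, ?_, by rw [hy]⟩
        rw [mem_filter]
        refine ⟨mem_univ _, ?_⟩
        rwa [hy, zero_pow hd0.ne', add_zero] at hP'
    refine (card_le_card hsub).trans ((card_union_le _ _).trans ?_)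
    have h3 := (card_image_le (s := univ.filter fun y : F => y ^ d = 1)
      (f := fun y => ((0 : F), y))).trans hroots
    have h4 := (card_image_le (s := univ.filter fun y : F => y ^ d = 1)
      (f := fun x => (x, (0 : F)))).trans hroots
    omega
  have habs := abs_card_sub_le hd0 hd
  rw [← hS, abs_le] at habs
  set w := √(Fintype.card F : ℝ) with hw
  have hww : w ^ 2 = Fintype.card F := Real.sq_sqrt (Nat.cast_nonneg _)
  have hw2 : (d : ℝ) ^ 2 < w := by
    rw [hw]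
    apply Real.lt_sqrt_of_sq_lt
    calc ((d : ℝ) ^ 2) ^ 2 = ((d ^ 4 : ℕ) : ℝ) := by push_cast; ring
      _ < Fintype.card F := by exact_mod_cast hlt
  have hcard' : (S.card : ℝ) ≤ 2 * d := by exact_mod_cast hcard
  rcases Nat.lt_or_ge d 2 with hd1 | hd2
  · have hd1' : d = 1 := by omega
    subst hd1'
    have h3 : (3 : ℝ) ≤ Fintype.card F := by exact_mod_cast h2
    norm_num at habs hcard'
    linarith [habs.1]
  · have hc1 : ((d - 1 : ℕ) : ℝ) = d - 1 := by
      rw [Nat.cast_sub (by omega)]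
      norm_num
    have hc2 : ((d - 2 : ℕ) : ℝ) = d - 2 := by
      rw [Nat.cast_sub hd2]
      norm_num
    rw [hc1, hc2] at habs
    have hd2' : (2 : ℝ) ≤ d := by exact_mod_cast hd2
    have h4 := habs.1
    rw [← hww] at h4
    nlinarith [mul_nonneg (sub_nonneg.mpr hd2') (sub_nonneg.mpr hd2'),
      mul_pos (show (0 : ℝ) < d by linarith) (sub_pos.mpr hw2),
      mul_pos (sub_pos.mpr hw2) (sub_pos.mpr hw2), sq_nonneg ((d : ℝ) - 2),
      mul_nonneg (mul_nonneg (show (0 : ℝ) ≤ d by linarith) (show (0 : ℝ) ≤ d by linarith))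
        (sub_nonneg.mpr hd2')]

omit [DecidableEq F] in
/-- A `gcd (n, q - 1)`-th power is an `n`-th power. -/
theorem exists_pow_eq_pow_gcd (n : ℕ) {x : F} (hx : x ≠ 0) :
    ∃ y : F, y ≠ 0 ∧ y ^ n = x ^ Nat.gcd n (Fintype.card F - 1) := by
  refine ⟨x ^ Nat.gcdA n (Fintype.card F - 1), zpow_ne_zero _ hx, ?_⟩
  have h1 := Nat.gcd_eq_gcd_ab n (Fintype.card F - 1)
  have h2 : x ^ ((Fintype.card F - 1 : ℕ) : ℤ) = 1 := by
    rw [zpow_natCast, FiniteField.pow_card_sub_one_eq_one x hx]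
  rw [← zpow_natCast x (Nat.gcd _ _), h1, zpow_add₀ hx, zpow_mul x ((Fintype.card F - 1 : ℕ) : ℤ),
    h2, one_zpow, mul_one, ← zpow_natCast, ← zpow_mul, mul_comm]

/-- **Schur, Dickson**: Fermat's equation has non-trivial solutions in every large finite field. -/
theorem exists_fermat {n : ℕ} (hn : 2 ≤ n) (hlt : n ^ 4 < Fintype.card F) :
    ∃ x y z : F, x ≠ 0 ∧ y ≠ 0 ∧ z ≠ 0 ∧ x ^ n + y ^ n = z ^ n := by
  have h16 : 2 ^ 4 ≤ n ^ 4 := Nat.pow_le_pow_left hn 4
  have hd : Nat.gcd n (Fintype.card F - 1) ≤ n := Nat.gcd_le_left _ (by omega)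
  obtain ⟨x, y, hx, hy, hxy⟩ := exists_add_pow_eq_one (F := F)
    (Nat.gcd_dvd_right n (Fintype.card F - 1)) (by omega)
    ((Nat.pow_le_pow_left hd 4).trans_lt hlt)
  obtain ⟨x', hx', hx''⟩ := exists_pow_eq_pow_gcd n hx
  obtain ⟨y', hy', hy''⟩ := exists_pow_eq_pow_gcd n hy
  exact ⟨x', y', 1, hx', hy', one_ne_zero, by rw [hx'', hy'', hxy, one_pow]⟩

/-- **Schur**: for `n ≥ 2` and every prime `p > n ^ 4` there are integers prime to `p` with
`x ^ n + y ^ n ≡ z ^ n` modulo `p`. -/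
theorem exists_fermat_modEq {n p : ℕ} (hn : 2 ≤ n) (hp : p.Prime) (hlt : n ^ 4 < p) :
    ∃ x y z : ℤ, ¬ (p : ℤ) ∣ x ∧ ¬ (p : ℤ) ∣ y ∧ ¬ (p : ℤ) ∣ z ∧
      x ^ n + y ^ n ≡ z ^ n [ZMOD p] := by
  have : Fact p.Prime := ⟨hp⟩
  obtain ⟨x, y, z, hx, hy, hz, h⟩ := exists_fermat (F := ZMod p) hn (by rwa [ZMod.card])
  obtain ⟨x, rfl⟩ := ZMod.intCast_surjective x
  obtain ⟨y, rfl⟩ := ZMod.intCast_surjective y
  obtain ⟨z, rfl⟩ := ZMod.intCast_surjective z
  refine ⟨x, y, z, ?_, ?_, ?_, ?_⟩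
  · rwa [ne_eq, ZMod.intCast_zmod_eq_zero_iff_dvd] at hx
  · rwa [ne_eq, ZMod.intCast_zmod_eq_zero_iff_dvd] at hy
  · rwa [ne_eq, ZMod.intCast_zmod_eq_zero_iff_dvd] at hz
  · rw [← ZMod.intCast_eq_intCast_iff]
    push_cast
    exact h

end Fermat.Agent.Cor.Weil
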