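import Fermat.Agent.Corollaries.Weil.Main
import Fermat.Agent.Corollaries.Weil.Betti
import Fermat.Agent.Corollaries.Weil.LogDer

/-!
# The zeta function of a diagonal hypersurface (Weil 1949)

`Z = exp (∑ N_s T ^ s / s)` is a rational function: `Z = P / D` for an even number `r` of
dimensions plus one, `Z = 1 / (D P)` otherwise, `D = ∏_{j < r} (1 - q ^ j T)`, `P = ∏ (1 - α T)`.
-/

set_option autoImplicit false

noncomputable section

namespace Fermat.Agent.Cor.Weil

open Finset PowerSeries

variable {F : Type*} [Field F] [Fintype F] (p : ℕ) [Fact p.Prime] [CharP F p]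

/-- The number of the points over the extension of degree `s` (`0` for `s = 0`). -/
def numPoints (n : ℕ) {r : ℕ} (a : Fin (r + 1) → F) (s : ℕ) : ℕ :=
  if h : s = 0 then 0 else
    haveI : NeZero s := ⟨h⟩
    Nat.card (Points (FiniteField.Extension F p s) n
      fun i => algebraMap F (FiniteField.Extension F p s) (a i))

/-- The zeta function `exp (∑ N_s T ^ s / s)` of the hypersurface `∑ a_i x_i ^ n = 0`. -/
def zetaSeries (n : ℕ) {r : ℕ} (a : Fin (r + 1) → F) : ℂ⟦X⟧ :=
  (PowerSeries.exp ℂ).subst (PowerSeries.mk fun s => (numPoints p n a s : ℂ) / s)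

theorem hasLog_exp {N : ℕ → ℂ} (hN : N 0 = 0) :
    HasLog ((PowerSeries.exp ℂ).subst (PowerSeries.mk fun s => N s / s : ℂ⟦X⟧))
      (PowerSeries.mk N) := by
  have h0 : constantCoeff (PowerSeries.mk fun s => N s / s : ℂ⟦X⟧) = 0 := by
    rw [← coeff_zero_eq_constantCoeff_apply, coeff_mk]
    simp
  have hs : HasSubst (PowerSeries.mk fun s => N s / s : ℂ⟦X⟧) :=
    HasSubst.of_constantCoeff_zero' h0
  constructor
  · rw [← coeff_zero_eq_constantCoeff_apply, coeff_subst' hs, finsum_eq_single _ 0]
    · simp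
    · intro d hd
      rw [coeff_zero_eq_constantCoeff_apply (_ ^ d), map_pow, h0, zero_pow hd, smul_zero]
  · rw [derivative_subst hs, derivative_exp, mul_left_comm]
    congr 1
    ext s
    cases s with
    | zero => simp [hN]
    | succ s =>
      rw [coeff_succ_X_mul, coeff_derivative, coeff_mk, coeff_mk]
      have : (s + 1 : ℂ) ≠ 0 := by exact_mod_cast Nat.succ_ne_zero s
      push_cast
      field_simp

/-- The zeta function and the numbers of points. -/
theorem hasLog_zetaSeries (n : ℕ) {r : ℕ} (a : Fin (r + 1) → F) :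
    HasLog (zetaSeries p n a) (PowerSeries.mk fun s => (numPoints p n a s : ℂ)) :=
  hasLog_exp (by simp [numPoints])

/-- **Weil 1949**: the zeta function of a diagonal hypersurface of dimension `r - 1` and degree
`n`: rationality, functional equation, Riemann hypothesis. The number of the `k` is given by
`card_expSet`: `n * (expSet (Fin (r + 1)) n).card = (n - 1) ^ (r + 1) + (-1) ^ (r + 1) * (n - 1)`. -/
theorem zetaSeries_eq {n : ℕ} (hn : n ∣ Fintype.card F - 1) {r : ℕ} {a : Fin (r + 1) → F}
    (ha : ∀ i, a i ≠ 0) :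
    ∃ α : (Fin (r + 1) → ℕ) → ℂ,
      (∀ k ∈ expSet (Fin (r + 1)) n, ‖α k‖ = (Fintype.card F : ℝ) ^ (((r : ℝ) - 1) / 2)) ∧
      (∀ k ∈ expSet (Fin (r + 1)) n,
        (Fintype.card F : ℂ) * (α k * α fun i => n - k i) = (Fintype.card F : ℂ) ^ r) ∧
      (Even r → zetaSeries p n a * ∏ j ∈ range r, (1 - C ((Fintype.card F : ℂ) ^ j) * X) =
        ∏ k ∈ expSet (Fin (r + 1)) n, (1 - C (α k) * X)) ∧
      (Odd r → zetaSeries p n a * (∏ j ∈ range r, (1 - C ((Fintype.card F : ℂ) ^ j) * X)) *
        ∏ k ∈ expSet (Fin (r + 1)) n, (1 - C (α k) * X) = 1) := by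
  obtain ⟨α, h1, h2, h3⟩ := weil (F := F) hn ha
  refine ⟨α, h1, h2, ?_⟩
  have hN : (PowerSeries.mk fun s => (numPoints p n a s : ℂ)) =
      ∑ j ∈ range r, geo ((Fintype.card F : ℂ) ^ j) +
        C ((-1 : ℂ) ^ (r + 1)) * ∑ k ∈ expSet (Fin (r + 1)) n, geo (α k) := by
    ext s
    rw [coeff_mk, map_add, coeff_C_mul, map_sum, map_sum]
    simp only [geo, coeff_mk]
    by_cases hs : s = 0
    · simp [numPoints, hs]
    · have hs' : NeZero s := ⟨hs⟩
      let _ : Fintype (FiniteField.Extension F p s) := Fintype.ofFinite _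
      have h4 := h3 (FiniteField.Extension F p s)
      rw [FiniteField.finrank_extension] at h4
      have h5 : (Fintype.card (FiniteField.Extension F p s) : ℂ) = (Fintype.card F : ℂ) ^ s := by
        rw [← Nat.card_eq_fintype_card, FiniteField.natCard_extension, Nat.card_eq_fintype_card]
        push_cast
        rfl
      rw [h5] at h4
      simp only [if_neg hs]
      rw [numPoints, dif_neg hs, h4]
      congr 1
      exact sum_congr rfl fun j _ => by rw [← pow_mul, ← pow_mul, mul_comm]
  have hD : HasLog (∏ j ∈ range r, (1 - C ((Fintype.card F : ℂ) ^ j) * X))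
      (∑ j ∈ range r, -geo ((Fintype.card F : ℂ) ^ j)) :=
    HasLog.prod _ fun j _ => hasLog_geo _
  have hP : HasLog (∏ k ∈ expSet (Fin (r + 1)) n, (1 - C (α k) * X))
      (∑ k ∈ expSet (Fin (r + 1)) n, -geo (α k)) :=
    HasLog.prod _ fun k _ => hasLog_geo _
  have hZ := hasLog_zetaSeries p n a
  rw [hN] at hZ
  constructor
  · intro hr
    refine HasLog.unique (hZ.mul hD) ?_
    convert hP using 1
    rw [(Even.add_one hr).neg_one_pow, sum_neg_distrib, sum_neg_distrib, map_neg, map_one]
    ring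
  · intro hr
    refine HasLog.unique ((hZ.mul hD).mul hP) ?_
    convert HasLog.one using 1
    rw [(Odd.add_one hr).neg_one_pow, sum_neg_distrib, sum_neg_distrib, map_one]
    ring

end Fermat.Agent.Cor.Weil
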